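import Fermat.Agent.S17.HL.Minor

set_option autoImplicit false

/-!
# S17 / HL : fields of definition
-/

namespace Fermat.Agent.S17.HL

/-- **Field of definition**: finitely many subspaces and vectors are defined over one number field
(adjoin the entries of bases: `IntermediateField.adjoin ℚ` of a finite set of algebraic elements is finite
dimensional). -/
theorem exists_numberField {ι : Type} [Finite ι] (dd : ι → ℕ)
    (U : ∀ i, Submodule Qb (Fin (dd i) → Qb)) (s : Finset Qb) :
    ∃ (K : IntermediateField ℚ Qb), FiniteDimensional ℚ K ∧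
      (∀ i, DefinedOver (algebraMap K Qb) (U i)) ∧ ∀ x ∈ s, x ∈ K := by
  classical
  have hb : ∀ i, ∃ (r : ℕ) (S : Fin r → Fin (dd i) → Qb), LinearIndependent Qb S ∧
      Submodule.span Qb (Set.range S) = U i := by
    intro i
    let b := Module.finBasis Qb (U i)
    refine ⟨_, fun a => (b a : Fin (dd i) → Qb), ?_, ?_⟩
    · exact b.linearIndependent.map' (U i).subtype (Submodule.ker_subtype _)
    · have h2 := congrArg (Submodule.map (U i).subtype) b.span_eq
      rw [Submodule.map_span, Submodule.map_top, Submodule.range_subtype, ← Set.range_comp] at h2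
      exact h2
  choose r S hli hspan using hb
  let T : Set Qb := ↑s ∪ ⋃ i, Set.range (fun p : Fin (r i) × Fin (dd i) => S i p.1 p.2)
  have hT : T.Finite := s.finite_toSet.union (Set.finite_iUnion fun i => Set.finite_range _)
  refine ⟨IntermediateField.adjoin ℚ T, ?_, ?_, ?_⟩
  · have := hT.to_subtype
    have : Algebra.IsAlgebraic ℚ Qb := AlgebraicClosure.isAlgebraic ℚ
    exact IntermediateField.finiteDimensional_adjoin
      (fun x _ => (Algebra.IsAlgebraic.isAlgebraic x).isIntegral)
  · intro i
    have hmem : ∀ a k, S i a k ∈ IntermediateField.adjoin ℚ T := fun a k =>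
      IntermediateField.subset_adjoin _ _ (Or.inr (Set.mem_iUnion.2 ⟨i, ⟨(a, k), rfl⟩⟩))
    refine ⟨r i, fun a k => ⟨S i a k, hmem a k⟩, ?_, ?_⟩
    · rw [← linearIndependent_map_iff (algebraMap (IntermediateField.adjoin ℚ T) Qb)]
      exact hli i
    · exact hspan i
  · intro x hx
    exact IntermediateField.subset_adjoin _ _ (Or.inl hx)

end Fermat.Agent.S17.HL
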