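import Fermat.Agent.S17.HL.HKBasic

set_option autoImplicit false

/-!
# S17 / HL : base change of heights from `ℚ` to a number field
-/

namespace Fermat.Agent.S17.HL

open Height NumberField

theorem exists_primitive_int {ι : Type} [Fintype ι] (x : ι → ℚ) (hx : x ≠ 0) :
    ∃ (c : ℚ) (z : ι → ℤ), c ≠ 0 ∧ Finset.univ.gcd z = 1 ∧ ∀ i, x i = c * z i := by
  classical
  obtain ⟨i₀, hi₀⟩ := Function.ne_iff.mp hx
  obtain ⟨b, hb⟩ := IsLocalization.exist_integer_multiples_of_finite (nonZeroDivisors ℤ) x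
  choose y hy using hb
  have hb0 : ((b : ℤ) : ℚ) ≠ 0 := by
    exact_mod_cast nonZeroDivisors.coe_ne_zero b
  have hy' : ∀ i, (y i : ℚ) = (b : ℤ) * x i := by
    intro i
    have := hy i
    simpa using this
  obtain ⟨z, hz, hg⟩ := Finset.extract_gcd y (Finset.univ_nonempty_iff.2 ⟨i₀⟩)
  have hg0 : Finset.univ.gcd y ≠ 0 := by
    intro h0
    rw [Finset.gcd_eq_zero_iff] at h0
    have h1 := hy' i₀
    rw [h0 i₀ (Finset.mem_univ _)] at h1
    have : x i₀ = 0 := by
      have h2 : ((b : ℤ) : ℚ) * x i₀ = 0 := by rw [← h1]; simp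
      exact (mul_eq_zero.1 h2).resolve_left hb0
    exact hi₀ this
  refine ⟨((Finset.univ.gcd y : ℤ) : ℚ) / (b : ℤ), z, div_ne_zero (by exact_mod_cast hg0) hb0, hg, ?_⟩
  intro i
  have h1 := hy' i
  rw [hz i (Finset.mem_univ _)] at h1
  push_cast at h1
  field_simp
  linarith

theorem iSup_finitePlace_intCast {K : Type} [Field K] [NumberField K] {ι : Type} [Fintype ι]
    [Nonempty ι] {x : ι → ℤ} (v : FinitePlace K) (hx : Finset.univ.gcd x = 1) :
    ⨆ i, v ((x i : ℤ) : K) = 1 := by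
  have hv : IsNonarchimedean (v ·) := FinitePlace.add_le v
  have H (n : ℤ) : v (n : K) ≤ 1 := IsNonarchimedean.apply_intCast_le_one hv
  obtain ⟨f, hf⟩ := Finset.gcd_eq_sum_mul .univ x
  have hf' : (1 : K) = ∑ i, ((x i : ℤ) : K) * ((f i : ℤ) : K) := by
    rw [hx] at hf
    have := congrArg (Int.cast : ℤ → K) hf
    simpa using this
  have h1 : (1 : ℝ) ≤ ⨆ i, v (((x i : ℤ) : K) * ((f i : ℤ) : K)) := by
    have := hv.apply_sum_univ_le (l := fun i => ((x i : ℤ) : K) * ((f i : ℤ) : K))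
    rw [← hf', map_one] at this
    exact this
  obtain ⟨i, hi⟩ := exists_eq_ciSup_of_finite (f := fun i ↦ v (((x i : ℤ) : K) * ((f i : ℤ) : K)))
  rw [← hi, map_mul] at h1
  replace h1 : 1 ≤ v ((x i : ℤ) : K) := h1.trans <| mul_le_of_le_one_right (apply_nonneg v _) (H _)
  exact le_antisymm (ciSup_le (H <| x ·)) <| Finite.le_ciSup_of_le i h1

theorem mulHeight_intCast {K : Type} [Field K] [NumberField K] {ι : Type} [Fintype ι]
    [Nonempty ι] {x : ι → ℤ} (hx : Finset.univ.gcd x = 1) :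
    mulHeight (fun i => ((x i : ℤ) : K)) = (⨆ i, |((x i : ℤ) : ℝ)|) ^ Module.finrank ℚ K := by
  have hx₀ : (fun i => ((x i : ℤ) : K)) ≠ 0 := by
    intro h0
    have : x = 0 := by
      funext i
      have := congrFun h0 i
      simpa using this
    rw [this, Finset.gcd_eq_zero_iff.mpr (by simp)] at hx
    exact zero_ne_one hx
  rw [NumberField.mulHeight_eq hx₀,
    finprod_eq_one_of_forall_eq_one (fun v => iSup_finitePlace_intCast v hx), mul_one]
  have h1 : ∀ (v : InfinitePlace K) (i : ι), v ((x i : ℤ) : K) = |((x i : ℤ) : ℝ)| := by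
    intro v i
    rw [← v.norm_embedding_eq, map_intCast, Complex.norm_intCast]
  simp only [h1]
  rw [Finset.prod_pow_eq_pow_sum, InfinitePlace.sum_mult_eq]

theorem logHeight_map_rat {K : Type} [Field K] [NumberField K] {ι : Type} [Finite ι] (x : ι → ℚ) :
    logHeight (fun i => ((x i : ℚ) : K)) = Module.finrank ℚ K * logHeight x := by
  classical
  have := Fintype.ofFinite ι
  by_cases hx : x = 0
  · subst hx
    have e : (fun i : ι => (((0 : ι → ℚ) i : ℚ) : K)) = 0 := by
      funext i; simp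
    rw [e, logHeight_zero, logHeight_zero, mul_zero]
  obtain ⟨i₀, -⟩ := Function.ne_iff.mp hx
  have : Nonempty ι := ⟨i₀⟩
  obtain ⟨c, z, hc, hz, hxz⟩ := exists_primitive_int x hx
  have e1 : x = c • (((↑) : ℤ → ℚ) ∘ z) := by
    funext i
    simp [hxz i]
  have e2 : (fun i => ((x i : ℚ) : K)) = (c : K) • (fun i => ((z i : ℤ) : K)) := by
    funext i
    simp [hxz i]
  rw [e2, logHeight_smul_eq_logHeight _ (by exact_mod_cast hc), e1,
    logHeight_smul_eq_logHeight _ hc, Rat.logHeight_eq_max_abs_of_gcd_eq_one hz,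
    logHeight_eq_log_mulHeight, mulHeight_intCast hz, Real.log_pow]
  congr 2
  rw [Finite.map_iSup_of_monotone _ Int.cast_mono]
  simp

theorem IsBasisOf.of_rat {K : Type} [Field K] [CharZero K] (φ : K →+* Qb) {r d : ℕ}
    {S : Fin r → Fin d → ℚ} {U : Submodule Qb (Fin d → Qb)}
    (h : IsBasisOf (algebraMap ℚ Qb) S U) : IsBasisOf φ (fun i k => Rat.castHom K (S i k)) U := by
  refine ⟨(linearIndependent_map_iff (Rat.castHom K) S).2 h.1, ?_⟩
  rw [← h.2]
  congr 2
  funext i k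
  simp

/-- **Base change for subspaces defined over `ℚ`.** -/
theorem HK_of_definedOver_rat {K : Type} [Field K] [NumberField K] (φ : K →+* Qb) {d : ℕ}
    (U : Submodule Qb (Fin d → Qb)) (hU : DefinedOver (algebraMap ℚ Qb) U) :
    HK φ U = Module.finrank ℚ K * HK (algebraMap ℚ Qb) U := by
  obtain ⟨r, S, hS⟩ := hU
  rw [HK_eq φ (hS.of_rat φ), HK_eq _ hS]
  unfold Hmat
  rw [← logHeight_map_rat]
  congr 1
  funext f
  rw [minors_map]
  rfl

theorem DefinedOver.of_rat {K : Type} [Field K] [CharZero K] (φ : K →+* Qb) {d : ℕ}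
    {U : Submodule Qb (Fin d → Qb)} (hU : DefinedOver (algebraMap ℚ Qb) U) : DefinedOver φ U := by
  obtain ⟨r, S, hS⟩ := hU
  exact ⟨r, _, hS.of_rat φ⟩

end Fermat.Agent.S17.HL
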