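import Fermat.Agent.S17.HL.Minor

set_option autoImplicit false

/-!
# S17 / HL : ranks of families of vectors, via minors
-/

namespace Fermat.Agent.S17.HL

variable {K : Type} [Field K]

/-- `r''` linearly independent members can be extracted from a family of rank `≥ r''`. -/
theorem exists_minors_ne_zero_of_le_finrank {P : Type} [Finite P] {d : ℕ} (w : P → Fin d → K)
    (n : ℕ) (h : n ≤ Module.finrank K (Submodule.span K (Set.range w))) :
    ∃ (g : Fin n → P) (f : Fin n → Fin d), minors (fun a => w (g a)) f ≠ 0 := by
  obtain ⟨c, hc, -, hli⟩ := Submodule.exists_fun_fin_finrank_span_eq K (Set.range w)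
  choose g0 hg0 using hc
  refine ⟨fun a => g0 (Fin.castLE h a), ?_⟩
  apply exists_minors_ne_zero
  have h1 : (fun a => w (g0 (Fin.castLE h a))) = c ∘ (Fin.castLE h) := by
    funext a
    rw [Function.comp_apply, hg0]
  rw [h1]
  exact hli.comp _ (Fin.castLE_injective h)

/-- rank `≤ ρ` iff all `(ρ+1)`-minors vanish. -/
theorem finrank_span_le_iff {P : Type} [Finite P] {d : ℕ} (w : P → Fin d → K) (ρ : ℕ) :
    Module.finrank K (Submodule.span K (Set.range w)) ≤ ρ ↔
      ∀ (g : Fin (ρ + 1) → P) (f : Fin (ρ + 1) → Fin d), minors (fun a => w (g a)) f = 0 := by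
  constructor
  · intro h g f
    apply minors_eq_zero_of_not_linearIndependent
    intro hli
    have h1 : Module.finrank K (Submodule.span K (Set.range fun a => w (g a))) = ρ + 1 := by
      rw [finrank_span_eq_card hli, Fintype.card_fin]
    have h2 : Submodule.span K (Set.range fun a => w (g a)) ≤ Submodule.span K (Set.range w) := by
      apply Submodule.span_mono
      rintro _ ⟨a, rfl⟩
      exact ⟨g a, rfl⟩
    have h3 := Submodule.finrank_mono h2
    omega
  · intro h
    by_contra hlt
    rw [not_le] at hlt
    obtain ⟨g, f, hgf⟩ := exists_minors_ne_zero_of_le_finrank w (ρ + 1) hlt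
    exact hgf (h g f)

/-- the rank of a family does not change under field extension. -/
theorem finrank_span_map {L : Type} [Field L] (φ : K →+* L) {P : Type} [Finite P] {d : ℕ}
    (w : P → Fin d → K) :
    Module.finrank L (Submodule.span L (Set.range fun p => (fun k => φ (w p k)))) =
      Module.finrank K (Submodule.span K (Set.range w)) := by
  have key : ∀ ρ : ℕ,
      Module.finrank L (Submodule.span L (Set.range fun p => (fun k => φ (w p k)))) ≤ ρ ↔
      Module.finrank K (Submodule.span K (Set.range w)) ≤ ρ := by
    intro ρ
    rw [finrank_span_le_iff, finrank_span_le_iff]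
    constructor
    · intro h g f
      have := h g f
      rw [minors_map φ (fun a => w (g a)) f] at this
      exact (map_eq_zero φ).mp this
    · intro h g f
      rw [minors_map φ (fun a => w (g a)) f, h g f, map_zero]
  exact le_antisymm ((key _).mpr le_rfl) ((key _).mp le_rfl)

/-- descent of membership in a row space. -/
theorem mem_rsp_of_map_mem {L : Type} [Field L] (φ : K →+* L) {r d : ℕ} (S : Fin r → Fin d → K)
    (t : Fin d → K) (h : (fun k => φ (t k)) ∈ rsp (fun i k => φ (S i k))) : t ∈ rsp S := by
  have hK : Set.range (consRow t S) = insert t (Set.range S) := Fin.range_cons t S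
  have hmap : (fun p => (fun k => φ (consRow t S p k))) =
      consRow (fun k => φ (t k)) (fun i k => φ (S i k)) := by
    funext p
    refine Fin.cases ?_ (fun i => ?_) p <;> rfl
  have hL : Set.range (consRow (fun k => φ (t k)) (fun i k => φ (S i k))) =
      insert (fun k => φ (t k)) (Set.range (fun i k => φ (S i k))) := Fin.range_cons _ _
  have h1 := finrank_span_map φ (consRow t S)
  have h2 := finrank_span_map φ S
  rw [hmap, hL, Submodule.span_insert_eq_span h] at h1
  rw [h1, hK] at h2
  have hle : Submodule.span K (Set.range S) ≤ Submodule.span K (insert t (Set.range S)) :=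
    Submodule.span_mono (Set.subset_insert _ _)
  have heq := Submodule.eq_of_le_of_finrank_eq hle h2.symm
  show t ∈ Submodule.span K (Set.range S)
  rw [heq]
  exact Submodule.subset_span (Set.mem_insert _ _)

/-- two bases of the same space differ by an invertible matrix. -/
theorem exists_matrix_of_rsp_eq {r d : ℕ} (S S' : Fin r → Fin d → K) (hS : LinearIndependent K S)
    (hS' : LinearIndependent K S') (h : rsp S = rsp S') :
    ∃ g : Matrix (Fin r) (Fin r) K, g.det ≠ 0 ∧ S' = fun i => ∑ k, g i k • S k := by
  have hmem : ∀ i, S' i ∈ Submodule.span K (Set.range S) := by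
    intro i
    show S' i ∈ rsp S
    rw [h]
    exact Submodule.subset_span ⟨i, rfl⟩
  choose g hg using fun i => (Submodule.mem_span_range_iff_exists_fun K).mp (hmem i)
  have hS'eq : S' = fun i => ∑ k, g i k • S k := by
    funext i
    exact (hg i).symm
  refine ⟨Matrix.of g, ?_, hS'eq⟩
  obtain ⟨f, hf⟩ := exists_minors_ne_zero S' hS'
  intro hdet
  apply hf
  rw [hS'eq]
  have := minors_mulLeft (Matrix.of g) S f
  rw [hdet, zero_mul] at this
  exact this

end Fermat.Agent.S17.HL
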