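import Fermat.Agent.S17.HL.Glob
import Fermat.Agent.S17.HL.Rank

set_option autoImplicit false

/-!
# S17 / HL : the height `HK φ U` of a subspace defined over `K`: independence of the basis, base change, fields of
definition.
-/

namespace Fermat.Agent.S17.HL

open Height

theorem IsBasisOf.finrank_eq {K : Type} [Field K] (φ : K →+* Qb) {r d : ℕ}
    {S : Fin r → Fin d → K} {U : Submodule Qb (Fin d → Qb)} (h : IsBasisOf φ S U) :
    Module.finrank Qb U = r := by
  rw [← h.2, finrank_span_eq_card ((linearIndependent_map_iff φ S).2 h.1), Fintype.card_fin]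

/-- two `K`-rational bases of the same `Qb`-subspace have the same length. -/
theorem IsBasisOf.card_eq {K : Type} [Field K] (φ : K →+* Qb) {r r' d : ℕ}
    {S : Fin r → Fin d → K} {S' : Fin r' → Fin d → K} {U : Submodule Qb (Fin d → Qb)}
    (h : IsBasisOf φ S U) (h' : IsBasisOf φ S' U) : r = r' := by
  rw [← h.finrank_eq φ, h'.finrank_eq φ]

theorem IsBasisOf.mem_rsp_iff {K : Type} [Field K] (φ : K →+* Qb) {r d : ℕ}
    {S : Fin r → Fin d → K} {U : Submodule Qb (Fin d → Qb)} (h : IsBasisOf φ S U)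
    (t : Fin d → K) : t ∈ rsp S ↔ (fun k => φ (t k)) ∈ U := by
  constructor
  · intro ht
    obtain ⟨c, rfl⟩ := (Submodule.mem_span_range_iff_exists_fun K).1 ht
    rw [← h.2]
    have e : (fun k => φ ((∑ i, c i • S i) k)) = ∑ i, φ (c i) • (fun k => φ (S i k)) := by
      funext k
      simp only [Finset.sum_apply, Pi.smul_apply, smul_eq_mul, map_sum, map_mul]
    rw [e]
    exact Submodule.sum_mem _ fun i _ => Submodule.smul_mem _ _ (Submodule.subset_span ⟨i, rfl⟩)
  · intro ht
    rw [← h.2] at ht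
    exact mem_rsp_of_map_mem φ S t ht

/-- ... and the same `K`-span (`mem_rsp_of_map_mem`). -/
theorem IsBasisOf.rsp_eq {K : Type} [Field K] (φ : K →+* Qb) {r d : ℕ}
    {S S' : Fin r → Fin d → K} {U : Submodule Qb (Fin d → Qb)}
    (h : IsBasisOf φ S U) (h' : IsBasisOf φ S' U) : rsp S = rsp S' := by
  ext t
  rw [h.mem_rsp_iff φ, h'.mem_rsp_iff φ]

/-- `Hmat` only depends on the row space (`exists_matrix_of_rsp_eq`, `minors_mulLeft`,
`Height.logHeight_smul_eq_logHeight`). -/
theorem Hmat_eq_of_rsp_eq {K : Type} [Field K] [NumberField K] {r d : ℕ}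
    (S S' : Fin r → Fin d → K) (hS : LinearIndependent K S) (hS' : LinearIndependent K S')
    (h : rsp S = rsp S') : Hmat S = Hmat S' := by
  obtain ⟨g, hg, rfl⟩ := exists_matrix_of_rsp_eq S S' hS hS' h
  unfold Hmat
  have e : minors (fun i => ∑ k, g i k • S k) = g.det • minors S := by
    funext f
    rw [minors_mulLeft]
    rfl
  rw [e, logHeight_smul_eq_logHeight _ hg]

/-- **`HK` is computed by any rational basis.** -/
theorem HK_eq {K : Type} [Field K] [NumberField K] (φ : K →+* Qb) {r d : ℕ}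
    {S : Fin r → Fin d → K} {U : Submodule Qb (Fin d → Qb)} (h : IsBasisOf φ S U) :
    HK φ U = Hmat S := by
  have key : ∀ (r₁ : ℕ) (S₁ : Fin r₁ → Fin d → K), IsBasisOf φ S₁ U → Hmat S₁ = Hmat S := by
    intro r₁ S₁ h₁
    obtain rfl := h₁.card_eq φ h
    exact Hmat_eq_of_rsp_eq _ _ h₁.1 h.1 (h₁.rsp_eq φ h)
  have hd : DefinedOver φ U := ⟨r, S, h⟩
  unfold HK
  rw [dif_pos hd]
  exact key _ _ hd.choose_spec.choose_spec

/-- a basis of `W ≤ U` (codimension one, both defined over `K`) can be completed by one `K`-rational vector. -/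
theorem exists_consRow_basis {K : Type} [Field K] (φ : K →+* Qb) {r d : ℕ}
    {W : Fin r → Fin d → K} {UW U : Submodule Qb (Fin d → Qb)} (hW : IsBasisOf φ W UW)
    (hU : DefinedOver φ U) (hle : UW ≤ U) (hr : Module.finrank Qb U = r + 1) :
    ∃ s : Fin d → K, IsBasisOf φ (consRow s W) U := by
  obtain ⟨r', S', hS'⟩ := hU
  have hex : ∃ i, (fun k => φ (S' i k)) ∉ UW := by
    by_contra hcon
    push Not at hcon
    have h1 : U ≤ UW := by
      rw [← hS'.2]
      apply Submodule.span_le.2
      rintro _ ⟨i, rfl⟩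
      exact hcon i
    have h2 := Submodule.finrank_mono h1
    rw [hr, hW.finrank_eq φ] at h2
    omega
  obtain ⟨i, hi⟩ := hex
  have hind : LinearIndependent K (consRow (S' i) W) := by
    unfold consRow
    rw [linearIndependent_finCons]
    refine ⟨hW.1, fun hmem => hi ?_⟩
    exact (hW.mem_rsp_iff φ _).1 hmem
  refine ⟨S' i, hind, ?_⟩
  apply Submodule.eq_of_le_of_finrank_eq
  · apply Submodule.span_le.2
    rintro _ ⟨a, rfl⟩
    refine Fin.cases ?_ (fun b => ?_) a
    · rw [← hS'.2]
      exact Submodule.subset_span ⟨i, rfl⟩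
    · apply hle
      rw [← hW.2]
      exact Submodule.subset_span ⟨b, rfl⟩
  · rw [finrank_span_eq_card ((linearIndependent_map_iff φ _).2 hind), Fintype.card_fin, hr]

end Fermat.Agent.S17.HL
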