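import Fermat.Agent.S17.HL.Minor

set_option autoImplicit false

/-!
# S17 / HL : `v`-reduced bases
-/

namespace Fermat.Agent.S17.HL

variable {K : Type} [Field K]

/-- `R` is reduced with pivot map `I`: `R_I = Id` and all entries have absolute value `≤ 1`. -/
structure IsReduced (v : AbsoluteValue K ℝ) {r d : ℕ} (I : Fin r → Fin d)
    (R : Fin r → Fin d → K) : Prop where
  pivot : ∀ i k, R i (I k) = if i = k then 1 else 0
  le_one : ∀ i j, v (R i j) ≤ 1

theorem reduced_nrm_le {ι : Type} [Finite ι] (v : AbsoluteValue K ℝ) (x : ι → K) (i : ι) :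
    v (x i) ≤ nrm v x :=
  le_ciSup (f := fun i => v (x i)) (Set.finite_range _).bddAbove i

/-- if `R_I = Id` then `R i j` is the minor on `update I i j`. -/
theorem reduced_minor_update {r d : ℕ} (I : Fin r → Fin d) (R : Fin r → Fin d → K)
    (hp : ∀ i k, R i (I k) = if i = k then 1 else 0) (i : Fin r) (j : Fin d) :
    minors R (Function.update I i j) = R i j := by
  classical
  unfold minors
  have h1 : (Matrix.of fun a k => R a (Function.update I i j k)) =
      (1 : Matrix (Fin r) (Fin r) K).updateCol i (fun a => R a j) := by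
    ext a k
    rw [Matrix.updateCol_apply, Matrix.of_apply]
    by_cases hk : k = i
    · subst hk; simp
    · rw [if_neg hk, Function.update_of_ne hk, hp, Matrix.one_apply]
  rw [h1, ← Matrix.cramer_apply, Matrix.cramer_one]
  rfl

/-- **Reduced basis.** Choose `I` maximising `v (minors S I)` (non zero by `exists_minors_ne_zero`), put
`R = (S_I)⁻¹ S`. By Cramer `R i j = minors S (Function.update I i j) / minors S I`. -/
theorem exists_reduced (v : AbsoluteValue K ℝ) {r d : ℕ} (S : Fin r → Fin d → K)
    (hS : LinearIndependent K S) :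
    ∃ (I : Fin r → Fin d) (R : Fin r → Fin d → K), IsReduced v I R ∧
      minors S I ≠ 0 ∧ vol v S = v (minors S I) ∧ rsp R = rsp S ∧
      (∀ f, minors S f = minors S I * minors R f) := by
  classical
  obtain ⟨f0, hf0⟩ := exists_minors_ne_zero S hS
  have : Nonempty (Fin r → Fin d) := ⟨f0⟩
  obtain ⟨I, hI⟩ := exists_eq_ciSup_of_finite (f := fun f => v (minors S f))
  have hvol : vol v S = v (minors S I) := hI.symm
  have hmax : ∀ f, v (minors S f) ≤ v (minors S I) := by
    intro f
    rw [← hvol]
    exact reduced_nrm_le v (minors S) f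
  have hne : minors S I ≠ 0 := by
    intro h0
    have := hmax f0
    rw [h0, map_zero] at this
    exact hf0 ((v.eq_zero).mp (le_antisymm this (v.nonneg _)))
  let A : Matrix (Fin r) (Fin r) K := Matrix.of fun i k => S i (I k)
  have hdetA : A.det = minors S I := rfl
  have hunit : IsUnit A.det := isUnit_iff_ne_zero.mpr (hdetA ▸ hne)
  let R : Fin r → Fin d → K := fun i => ∑ k, A⁻¹ i k • S k
  have hmin : ∀ f, minors S f = minors S I * minors R f := by
    intro f
    have := minors_mulLeft A⁻¹ S f
    show minors S f = minors S I * minors (fun i => ∑ k, A⁻¹ i k • S k) f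
    rw [this, ← hdetA, ← mul_assoc, ← Matrix.det_mul, Matrix.mul_nonsing_inv A hunit,
      Matrix.det_one, one_mul]
  have hpiv : ∀ i k, R i (I k) = if i = k then 1 else 0 := by
    intro i k
    have h1 : R i (I k) = (A⁻¹ * A) i k := by
      simp [R, Matrix.mul_apply, Finset.sum_apply, A]
    rw [h1, Matrix.nonsing_inv_mul A hunit, Matrix.one_apply]
  refine ⟨I, R, ⟨hpiv, ?_⟩, hne, hvol, ?_, hmin⟩
  · intro i j
    rw [← reduced_minor_update I R hpiv i j]
    have h1 := hmin (Function.update I i j)
    have h2 := hmax (Function.update I i j)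
    rw [h1, map_mul] at h2
    have hpos : 0 < v (minors S I) := v.pos hne
    by_contra hlt
    rw [not_le] at hlt
    have : v (minors S I) * 1 < v (minors S I) * v (minors R (Function.update I i j)) :=
      mul_lt_mul_of_pos_left hlt hpos
    linarith
  · apply le_antisymm
    · apply Submodule.span_le.mpr
      rintro _ ⟨i, rfl⟩
      exact Submodule.sum_mem _ fun k _ =>
        Submodule.smul_mem _ _ (Submodule.subset_span ⟨k, rfl⟩)
    · apply Submodule.span_le.mpr
      rintro _ ⟨i, rfl⟩
      have h1 : S i = ∑ k, A i k • R k := by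
        have h2 : ∑ k, A i k • R k = ∑ l, (A * A⁻¹) i l • S l := by
          simp only [R, Finset.smul_sum, smul_smul, Matrix.mul_apply, Finset.sum_smul]
          rw [Finset.sum_comm]
        rw [h2, Matrix.mul_nonsing_inv A hunit]
        simp [Matrix.one_apply]
      rw [h1]
      exact Submodule.sum_mem _ fun k _ =>
        Submodule.smul_mem _ _ (Submodule.subset_span ⟨k, rfl⟩)

theorem IsReduced.linearIndependent {v : AbsoluteValue K ℝ} {r d : ℕ} {I : Fin r → Fin d}
    {R : Fin r → Fin d → K} (h : IsReduced v I R) : LinearIndependent K R := by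
  classical
  rw [linearIndependent_iff_exists_minors_ne_zero]
  refine ⟨I, ?_⟩
  have : minors R I = 1 := by
    unfold minors
    have h1 : (Matrix.of fun i k => R i (I k)) = (1 : Matrix (Fin r) (Fin r) K) := by
      ext i k
      rw [Matrix.of_apply, h.pivot, Matrix.one_apply]
    rw [h1, Matrix.det_one]
  rw [this]
  exact one_ne_zero

/-- coordinates in a reduced basis are read off on the pivots. -/
theorem IsReduced.eq_sum {v : AbsoluteValue K ℝ} {r d : ℕ} {I : Fin r → Fin d}
    {R : Fin r → Fin d → K} (h : IsReduced v I R) {t : Fin d → K} (ht : t ∈ rsp R) :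
    t = ∑ i, t (I i) • R i := by
  classical
  obtain ⟨c, rfl⟩ := (Submodule.mem_span_range_iff_exists_fun K).mp ht
  have : ∀ i, (∑ k, c k • R k) (I i) = c i := by
    intro i
    simp [Finset.sum_apply, h.pivot]
  simp only [this]

theorem IsReduced.nrm_le_one {v : AbsoluteValue K ℝ} {r d : ℕ} {I : Fin r → Fin d}
    {R : Fin r → Fin d → K} (h : IsReduced v I R) (i : Fin r) : nrm v (R i) ≤ 1 :=
  Real.iSup_le (fun j => h.le_one i j) zero_le_one

end Fermat.Agent.S17.HL
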