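import Mathlib

set_option autoImplicit false

/-!
# S17 / HL : the pigeonhole step of Siegel's lemma
-/

namespace Fermat.Agent.S17.HL

/-- **Pigeonhole.** `A` an integer `r × r` matrix with `det A ≠ 0`, `H = |det A|`, `N` with `H < (N + 1) ^ r`: there is
`c ≠ 0` in `ℤ ^ r` with `|(c A) k| ≤ N` for all `k`.  (The row lattice of `A` has index `H` in `ℤ^r`:
`AddSubgroup.index_eq_natAbs_det`; two of the `(N+1)^r` points of the box `[0,N]^r` are congruent.) -/
theorem exists_small_combination {r : ℕ} (A : Matrix (Fin r) (Fin r) ℤ) (hA : A.det ≠ 0) (N : ℕ)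
    (hN : A.det.natAbs < (N + 1) ^ r) :
    ∃ c : Fin r → ℤ, c ≠ 0 ∧ ∀ k, |∑ i, c i * A i k| ≤ N := by
  classical
  let φ : (Fin r → ℤ) →ₗ[ℤ] (Fin r → ℤ) := Matrix.toLin' A.transpose
  have hφ : ∀ c k, φ c k = ∑ i, c i * A i k := by
    intro c k
    simp [φ, Matrix.toLin'_apply, Matrix.mulVec, dotProduct, mul_comm]
  have hdet : LinearMap.det φ = A.det := by
    rw [LinearMap.det_toLin', Matrix.det_transpose]
  have hinj : Function.Injective φ := by
    rw [injective_iff_map_eq_zero]
    intro c hc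
    exact Matrix.eq_zero_of_mulVec_eq_zero (M := A.transpose)
      (by rw [Matrix.det_transpose]; exact hA) hc
  let e : (Fin r → ℤ) ≃ₗ[ℤ] LinearMap.range φ := LinearEquiv.ofInjective φ hinj
  have hcard : Nat.card ((Fin r → ℤ) ⧸ LinearMap.range φ) = A.det.natAbs := by
    have h := Submodule.natAbs_det_equiv (LinearMap.range φ) e
    rw [← h, ← hdet]
    congr 2
  have hfin : Finite ((Fin r → ℤ) ⧸ LinearMap.range φ) := by
    apply Nat.finite_of_card_ne_zero
    rw [hcard]
    exact Int.natAbs_ne_zero.mpr hA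
  have : Fintype ((Fin r → ℤ) ⧸ LinearMap.range φ) := Fintype.ofFinite _
  let g : (Fin r → Fin (N + 1)) → ((Fin r → ℤ) ⧸ LinearMap.range φ) :=
    fun x => Submodule.Quotient.mk (fun k => ((x k : ℕ) : ℤ))
  have hlt : Fintype.card ((Fin r → ℤ) ⧸ LinearMap.range φ) < Fintype.card (Fin r → Fin (N + 1)) := by
    rw [← Nat.card_eq_fintype_card, hcard]
    simpa using hN
  obtain ⟨x, y, hxy, hg⟩ := Fintype.exists_ne_map_eq_of_card_lt g hlt
  have hmem := (Submodule.Quotient.eq _).1 hg
  obtain ⟨c, hc⟩ := hmem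
  refine ⟨c, ?_, ?_⟩
  · rintro rfl
    apply hxy
    rw [map_zero] at hc
    funext k
    have := congrFun hc k
    simp only [Pi.zero_apply, Pi.sub_apply] at this
    apply Fin.ext
    omega
  · intro k
    rw [← hφ, hc]
    simp only [Pi.sub_apply]
    have h1 := (x k).isLt
    have h2 := (y k).isLt
    rw [abs_le]
    constructor <;> omega

end Fermat.Agent.S17.HL
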