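import Fermat.Agent.S17.HL.SiegelSat
import Fermat.Agent.S17.HL.SiegelPigeon
import Fermat.Agent.S17.HL.Reduced
import Fermat.Agent.S17.HL.HKBasic

set_option autoImplicit false

/-!
# S17 / HL : Siegel's lemma for a subspace of `ℚ ^ d`, in terms of the height of the subspace
-/

namespace Fermat.Agent.S17.HL

open Height

namespace SiegelAux

/-- integer `r`-th root. -/
theorem exists_root {r : ℕ} (hr : 0 < r) (H : ℕ) : ∃ N : ℕ, N ^ r ≤ H ∧ H < (N + 1) ^ r := by
  classical
  have hex : ∃ n : ℕ, H < (n + 1) ^ r :=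
    ⟨H, lt_of_lt_of_le (Nat.lt_succ_self H) (Nat.le_self_pow hr.ne' _)⟩
  refine ⟨Nat.find hex, ?_, Nat.find_spec hex⟩
  rcases Nat.eq_zero_or_pos (Nat.find hex) with h0 | hpos
  · rw [h0, zero_pow hr.ne']
    exact Nat.zero_le _
  · have := Nat.find_min hex (m := Nat.find hex - 1) (by omega)
    rw [Nat.sub_add_cancel hpos] at this
    exact not_lt.mp this

/-- the height of a nonzero integral vector is at most the logarithm of a bound of its entries. -/
theorem logHeight_int_le {d : ℕ} (u : Fin d → ℤ) (hu : u ≠ 0) (M : ℕ) (hM : ∀ j, |u j| ≤ M) :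
    logHeight (fun j => ((u j : ℤ) : ℚ)) ≤ Real.log M := by
  obtain ⟨j1, hj1⟩ := Function.ne_iff.mp hu
  have : Nonempty (Fin d) := ⟨j1⟩
  obtain ⟨u', hu', hgcd⟩ := Finset.extract_gcd u (Finset.univ_nonempty (α := Fin d))
  set g := Finset.univ.gcd u with hg
  have hg0 : g ≠ 0 := by
    intro h0
    apply hj1
    rw [hu' j1 (Finset.mem_univ _), h0, zero_mul]
    rfl
  have e : (fun j => ((u j : ℤ) : ℚ)) = (g : ℚ) • (((↑) : ℤ → ℚ) ∘ u') := by
    funext j
    simp only [Pi.smul_apply, Function.comp_apply, smul_eq_mul]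
    rw [hu' j (Finset.mem_univ _)]
    push_cast
    rfl
  rw [e, logHeight_smul_eq_logHeight _ (by exact_mod_cast hg0),
    Rat.logHeight_eq_max_abs_of_gcd_eq_one hgcd]
  obtain ⟨j0, hj0⟩ := exists_eq_ciSup_of_finite (f := fun j => |u' j|)
  rw [← hj0]
  have hle : |u' j0| ≤ M := by
    refine le_trans ?_ (hM j0)
    rw [hu' j0 (Finset.mem_univ _), abs_mul]
    have h1 : 1 ≤ |g| := Int.one_le_abs hg0
    nlinarith [abs_nonneg (u' j0)]
  have hpos : 0 < |u' j0| := by
    rw [hj0]
    have h1 : u' j1 ≠ 0 := by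
      intro h0
      apply hj1
      rw [hu' j1 (Finset.mem_univ _), h0, mul_zero]
      rfl
    exact lt_of_lt_of_le (abs_pos.mpr h1) (le_ciSup (f := fun j => |u' j|)
      (Set.finite_range _).bddAbove j1)
  apply Real.log_le_log (by exact_mod_cast hpos)
  exact_mod_cast hle

end SiegelAux

/-- **Siegel's lemma.**  `B` from `exists_saturated_basis`; `I` the maximal minor, `H = |det B_I| = exp (Hmat S)`
(`Rat.logHeight_eq_max_abs_of_gcd_eq_one`), `N = ⌊H^(1/r)⌋`, `c` from `exists_small_combination` for `A = B_I`, `u = c B`.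
On the pivots `|u (I k)| ≤ N`; the other coordinates are `u j = ∑ k u (I k) * R k j` with `R = B_I⁻¹ B` reduced for the usual
absolute value, so `|u j| ≤ r N`. -/
theorem siegel {r d : ℕ} (hr : 0 < r) (S : Fin r → Fin d → ℚ) (hS : LinearIndependent ℚ S) :
    ∃ u ∈ rsp S, u ≠ 0 ∧ (r : ℝ) * logHeight u ≤ Hmat S + r * Real.log r := by
  classical
  obtain ⟨B, hrsp, hBli, -, hgcd⟩ := exists_saturated_basis S hS
  set BQ : Fin r → Fin d → ℚ := fun i k => ((B i k : ℤ) : ℚ) with hBQ
  let mB : (Fin r → Fin d) → ℤ := fun f => Matrix.det (Matrix.of fun i k => B i (f k))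
  have hmin : minors BQ = ((↑) : ℤ → ℚ) ∘ mB := by
    funext f
    have h := RingHom.map_det (Int.castRingHom ℚ) (Matrix.of fun i k => B i (f k))
    rw [eq_intCast] at h
    simp only [Function.comp_apply, mB]
    rw [h]
    rfl
  obtain ⟨I, R, hred, hI0, -, hRrsp, -⟩ := exists_reduced Rat.AbsoluteValue.real BQ hBli
  have : Nonempty (Fin r → Fin d) := ⟨I⟩
  have hH : Hmat S = Real.log ((⨆ f, |mB f| : ℤ) : ℝ) := by
    rw [Hmat_eq_of_rsp_eq S BQ hS hBli hrsp.symm, Hmat, hmin]
    exact Rat.logHeight_eq_max_abs_of_gcd_eq_one hgcd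
  have hmI : mB I ≠ 0 := by
    intro h0
    apply hI0
    rw [hmin, Function.comp_apply, h0, Int.cast_zero]
  obtain ⟨N, hN1, hN2⟩ := SiegelAux.exists_root hr (mB I).natAbs
  obtain ⟨c, hc0, hc⟩ := exists_small_combination (Matrix.of fun i k => B i (I k)) hmI N hN2
  let u : Fin d → ℤ := ∑ i, c i • B i
  have huQ : (fun j => ((u j : ℤ) : ℚ)) = ∑ i, (c i : ℚ) • BQ i := by
    funext j
    simp [u, BQ, Finset.sum_apply]
  have hmemB : (fun j => ((u j : ℤ) : ℚ)) ∈ rsp BQ := by
    rw [huQ]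
    exact Submodule.sum_mem _ fun i _ => Submodule.smul_mem _ _ (Submodule.subset_span ⟨i, rfl⟩)
  have hu0Q : (fun j => ((u j : ℤ) : ℚ)) ≠ 0 := by
    intro h0
    rw [huQ] at h0
    have := Fintype.linearIndependent_iff.1 hBli _ h0
    apply hc0
    funext i
    exact_mod_cast this i
  have hu0 : u ≠ 0 := by
    intro h0
    apply hu0Q
    funext j
    rw [h0]
    simp
  have hpiv : ∀ k, |u (I k)| ≤ N := by
    intro k
    have := hc k
    simpa [u, Finset.sum_apply] using this
  have hbound : ∀ j, |u j| ≤ ((r * N : ℕ) : ℤ) := by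
    intro j
    have h1 := congrFun (hred.eq_sum (hRrsp ▸ hmemB)) j
    simp only [Finset.sum_apply, Pi.smul_apply, smul_eq_mul] at h1
    have h2 : |((u j : ℤ) : ℚ)| ≤ ((r * N : ℕ) : ℚ) := by
      rw [h1]
      calc |∑ i, ((u (I i) : ℤ) : ℚ) * R i j| ≤ ∑ i, |((u (I i) : ℤ) : ℚ) * R i j| :=
            Finset.abs_sum_le_sum_abs _ _
        _ ≤ ∑ _i : Fin r, (N : ℚ) := by
            apply Finset.sum_le_sum
            intro i _
            rw [abs_mul]
            have h3 : |((u (I i) : ℤ) : ℚ)| ≤ N := by exact_mod_cast hpiv i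
            have h4 : |R i j| ≤ 1 := by
              have := hred.le_one i j
              rw [Rat.AbsoluteValue.real_eq_abs] at this
              exact_mod_cast this
            calc |((u (I i) : ℤ) : ℚ)| * |R i j| ≤ N * 1 :=
                  mul_le_mul h3 h4 (abs_nonneg _) (by positivity)
              _ = N := mul_one _
        _ = ((r * N : ℕ) : ℚ) := by simp
    exact_mod_cast h2
  refine ⟨fun j => ((u j : ℤ) : ℚ), hrsp ▸ hmemB, hu0Q, ?_⟩
  have hlog := SiegelAux.logHeight_int_le u hu0 (r * N) hbound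
  have hNpos : 0 < N := by
    rcases Nat.eq_zero_or_pos N with h0 | h
    · exfalso
      apply hu0
      funext j
      have := hbound j
      rw [h0, mul_zero, Nat.cast_zero] at this
      exact abs_nonpos_iff.mp this
    · exact h
  have hrR : (0 : ℝ) < r := by exact_mod_cast hr
  have hNR : (0 : ℝ) < N := by exact_mod_cast hNpos
  have h5 : (r : ℝ) * Real.log N ≤ Hmat S := by
    rw [hH, ← Real.log_pow]
    apply Real.log_le_log (by positivity)
    have h6 : ((N ^ r : ℕ) : ℤ) ≤ ⨆ f, |mB f| := by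
      refine le_trans ?_ (le_ciSup (f := fun f => |mB f|) (Set.finite_range _).bddAbove I)
      rw [← Int.natCast_natAbs]
      exact_mod_cast hN1
    exact_mod_cast h6
  calc (r : ℝ) * logHeight (fun j => ((u j : ℤ) : ℚ)) ≤ r * Real.log ((r * N : ℕ) : ℝ) :=
        mul_le_mul_of_nonneg_left hlog hrR.le
    _ = r * Real.log N + r * Real.log r := by
        rw [Nat.cast_mul, Real.log_mul hrR.ne' hNR.ne']
        ring
    _ ≤ Hmat S + r * Real.log r := by linarith

end Fermat.Agent.S17.HL
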