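import Fermat.Agent.S17.HL.UPle

set_option autoImplicit false

/-!
# S17 / HL : the Nullstellensatz certificate with rational coefficients
-/

namespace Fermat.Agent.S17.HL

open MvPolynomial

/-- a proper ideal of `ℚ[x]` has a zero over `Qb` (Zariski's lemma). -/
theorem cert_exists_zero {σ : Type} [Finite σ] (J : Ideal (MvPolynomial σ ℚ)) (hJ : J ≠ ⊤) :
    ∃ x : σ → Qb, ∀ p ∈ J, evq x p = 0 := by
  obtain ⟨m, hm, hJm⟩ := Ideal.exists_le_maximal J hJ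
  let _ : Field (MvPolynomial σ ℚ ⧸ m) := Ideal.Quotient.field m
  have hfin : Module.Finite ℚ (MvPolynomial σ ℚ ⧸ m) :=
    finite_of_finite_type_of_isJacobsonRing ℚ (MvPolynomial σ ℚ ⧸ m)
  have halg : Algebra.IsAlgebraic ℚ (MvPolynomial σ ℚ ⧸ m) := Algebra.IsAlgebraic.of_finite _ _
  let φ : (MvPolynomial σ ℚ ⧸ m) →ₐ[ℚ] Qb := IsAlgClosed.lift
  let ψ : MvPolynomial σ ℚ →ₐ[ℚ] Qb := φ.comp (Ideal.Quotient.mkₐ ℚ m)
  refine ⟨fun s => ψ (X s), fun p hp => ?_⟩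
  have h1 : evq (fun s => ψ (X s)) p = ψ p := by
    unfold evq
    have h2 : (Rat.castHom Qb) = algebraMap ℚ Qb := Subsingleton.elim _ _
    rw [h2]
    have h3 : MvPolynomial.eval₂ (algebraMap ℚ Qb) (fun s => ψ (X s)) p
        = MvPolynomial.aeval (fun s => ψ (X s)) p := rfl
    rw [h3]
    have h4 : MvPolynomial.aeval (fun s => ψ (X s)) = ψ := by
      apply MvPolynomial.algHom_ext
      intro s
      simp
    rw [h4]
  rw [h1]
  show φ (Ideal.Quotient.mk m p) = 0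
  rw [Ideal.Quotient.eq_zero_iff_mem.mpr (hJm hp), map_zero]

/-- **Certificate.** Nullstellensatz over `Qb` + a `ℚ`-linear retraction `Qb → ℚ` applied to the
coefficients: if `Φ, Ψ` have no common zero over `Qb` then `1 = ∑ A i * Φ i + ∑ B j * Ψ j` over `ℚ`. -/
theorem exists_certificate {σ ι κ : Type} [Finite σ] [Fintype ι] [Fintype κ]
    (Φ : ι → MvPolynomial σ ℚ) (Ψ : κ → MvPolynomial σ ℚ)
    (h : ∀ x : σ → Qb, (∀ i, evq x (Φ i) = 0) → ∃ j, evq x (Ψ j) ≠ 0) :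
    ∃ (A : ι → MvPolynomial σ ℚ) (B : κ → MvPolynomial σ ℚ),
      ∑ i, A i * Φ i + ∑ j, B j * Ψ j = 1 := by
  have htop : Ideal.span (Set.range (Sum.elim Φ Ψ)) = ⊤ := by
    by_contra hne
    obtain ⟨x, hx⟩ := cert_exists_zero _ hne
    obtain ⟨j, hj⟩ := h x (fun i => hx _ (Ideal.subset_span ⟨Sum.inl i, rfl⟩))
    exact hj (hx _ (Ideal.subset_span ⟨Sum.inr j, rfl⟩))
  have h1 : (1 : MvPolynomial σ ℚ) ∈ Ideal.span (Set.range (Sum.elim Φ Ψ)) := by
    rw [htop]; trivial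
  rw [Ideal.mem_span_range_iff_exists_fun] at h1
  obtain ⟨c, hc⟩ := h1
  refine ⟨fun i => c (Sum.inl i), fun j => c (Sum.inr j), ?_⟩
  rw [← hc, Fintype.sum_sum_type]
  rfl

end Fermat.Agent.S17.HL
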