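import Fermat.Agent.S17.HL.Minor

set_option autoImplicit false

/-!
# S17 / HL : Cramer bound
-/

namespace Fermat.Agent.S17.HL

/-- **Cramer bound.** If `p` is a family of `n` vectors with entries `≤ B` and one `n`-minor `δ ≠ 0`, the
coordinates `c` of `t = ∑ c l • p l` satisfy `v (c l) * v δ ≤ kap (n !) v * B ^ (n - 1) * nrm v t`
(`c l * δ` is the determinant of the `f`-submatrix with row `l` replaced by `t ∘ f`; Leibniz formula). -/
theorem cramer_bound {K : Type} [Field K] [CharZero K] {v : AbsoluteValue K ℝ} (hv : GoodAbs v)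
    {n e : ℕ} (p : Fin n → Fin e → K) (f : Fin n → Fin e) {B : ℝ} (hB : 1 ≤ B)
    (hp : ∀ l k, v (p l k) ≤ B) (c : Fin n → K) (l : Fin n) :
    v (c l) * v (minors p f) ≤ kap (n.factorial) v * (B ^ n * nrm v (∑ l, c l • p l)) := by
  classical
  set t := ∑ l, c l • p l with ht
  set N := nrm v t with hNdef
  have hN : 0 ≤ N := nrm_nonneg v t
  have hB0 : 0 ≤ B := by linarith
  let A : Matrix (Fin n) (Fin n) K := Matrix.of fun i k => p i (f k)
  have hdet : c l * minors p f = (A.updateRow l (fun k => t (f k))).det := by
    have h := Matrix.det_updateRow_sum A l c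
    have e : (∑ k, c k • A k) = fun k => t (f k) := by
      funext k
      simp [ht, A, Finset.sum_apply]
    rw [e] at h
    rw [h]
    rfl
  rw [← map_mul, hdet, Matrix.det_apply']
  refine abv_sum_le_kap hv Finset.univ _ (by positivity) ?_ (Nat.factorial_pos n)
    (by simp [Fintype.card_perm])
  intro σ _
  rw [map_mul, map_prod]
  have hs : v (((Equiv.Perm.sign σ : ℤˣ) : ℤ) : K) = 1 := by
    rcases Int.units_eq_one_or (Equiv.Perm.sign σ) with h | h <;> simp [h]
  rw [hs, one_mul, ← Equiv.prod_comp σ.symm]
  simp only [Equiv.apply_symm_apply]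
  calc ∏ j, v ((A.updateRow l fun k => t (f k)) j (σ.symm j))
      ≤ ∏ j, Function.update (fun _ : Fin n => B) l N j := by
        apply Finset.prod_le_prod (fun _ _ => v.nonneg _)
        intro j _
        by_cases hj : j = l
        · subst hj
          rw [Matrix.updateRow_self, Function.update_self]
          exact le_nrm v t _
        · rw [Matrix.updateRow_ne hj, Function.update_of_ne hj]
          exact hp _ _
    _ = N * B ^ (n - 1) := by
        rw [Finset.prod_update_of_mem (Finset.mem_univ l), Finset.prod_const,
          Finset.card_sdiff_of_subset (Finset.subset_univ _)]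
        simp
    _ ≤ B ^ n * N := by
        rw [mul_comm]
        exact mul_le_mul_of_nonneg_right (pow_le_pow_right₀ hB (Nat.sub_le n 1)) hN

end Fermat.Agent.S17.HL
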