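import Mathlib

set_option autoImplicit false

/-!
# S17 / HL : local height theory of subspaces -- definitions

Everything here is elementary linear algebra over a field `K` with an absolute value `v`.
* `GoodAbs v` : `v` is nonarchimedean, or `v n = n` for all naturals (an archimedean place of a
  number field).
* `kap M v` : the local constant attached to a positive integer `M`
  (`(v M)⁻¹` at nonarchimedean `v`, `M` otherwise).
* `nrm v x` : sup norm of a vector.
* `Tab d₁ d₂ d₃` : a bilinear multiplication table with rational structure constants.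
* `minors S` : the vector of all `r × r` minors of a family `S` of `r` vectors in `K ^ d`, indexed by ALL
  maps `Fin r → Fin d` (non injective maps give `0`, permuted maps give `±` the same minor: harmless
  for sup norms and heights).
* `vol v S = nrm v (minors S)`, `Hmat S = logHeight (minors S)`.
-/

namespace Fermat.Agent.S17.HL

/-- the algebraically closed field of constants -/
abbrev Qb : Type := AlgebraicClosure ℚ

section abs

variable {K : Type} [Field K]

/-- nonarchimedean, or restricting to the usual absolute value on `ℕ`. -/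
def GoodAbs (v : AbsoluteValue K ℝ) : Prop :=
  IsNonarchimedean v ∨ ∀ n : ℕ, v (n : K) = n

open Classical in
/-- the local constant attached to the positive integer `M`. -/
noncomputable def kap (M : ℕ) (v : AbsoluteValue K ℝ) : ℝ :=
  if IsNonarchimedean v then (v (M : K))⁻¹ else (M : ℝ)

/-- sup norm -/
noncomputable def nrm {ι : Type} (v : AbsoluteValue K ℝ) (x : ι → K) : ℝ := ⨆ i, v (x i)

end abs

/-- multiplication table with rational structure constants -/
abbrev Tab (d₁ d₂ d₃ : ℕ) : Type := Fin d₁ → Fin d₂ → Fin d₃ → ℚ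

/-- the bilinear map defined by a table, over any field (of characteristic zero). -/
def Tab.mul {d₁ d₂ d₃ : ℕ} (T : Tab d₁ d₂ d₃) {K : Type} [Field K]
    (a : Fin d₁ → K) (b : Fin d₂ → K) : Fin d₃ → K :=
  fun l => ∑ i, ∑ j, ((T i j l : ℚ) : K) * a i * b j

/-- the family `(e_k * S_i)_{k,i}` spanning `V * span S`. -/
def Tab.fam {d₁ d₂ d₃ : ℕ} (T : Tab d₁ d₂ d₃) {K : Type} [Field K] {r : ℕ}
    (S : Fin r → Fin d₂ → K) : Fin d₁ × Fin r → Fin d₃ → K :=
  fun p => T.mul (Pi.single p.1 1) (S p.2)

/-- the family `(S_i * S'_j)_{i,j}` spanning `span S * span S'`. -/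
def Tab.fam₂ {d₁ d₂ d₃ : ℕ} (T : Tab d₁ d₂ d₃) {K : Type} [Field K] {r r' : ℕ}
    (S : Fin r → Fin d₁ → K) (S' : Fin r' → Fin d₂ → K) : Fin r × Fin r' → Fin d₃ → K :=
  fun p => T.mul (S p.1) (S' p.2)

/-- no zero divisors over `Qb`. -/
def Tab.NoZeroDiv {d₁ d₂ d₃ : ℕ} (T : Tab d₁ d₂ d₃) : Prop :=
  ∀ (a : Fin d₁ → Qb) (b : Fin d₂ → Qb), T.mul a b = 0 → a = 0 ∨ b = 0

section minors

variable {K : Type} [Field K]

/-- all `r × r` minors of the `r × d` matrix with rows `S i`. -/
def minors {r d : ℕ} (S : Fin r → Fin d → K) : (Fin r → Fin d) → K :=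
  fun f => Matrix.det (Matrix.of fun i k => S i (f k))

/-- local size of the Pluecker vector -/
noncomputable def vol {r d : ℕ} (v : AbsoluteValue K ℝ) (S : Fin r → Fin d → K) : ℝ :=
  nrm v (minors S)

/-- the row space -/
def rsp {r d : ℕ} (S : Fin r → Fin d → K) : Submodule K (Fin d → K) :=
  Submodule.span K (Set.range S)

/-- logarithmic height of the Pluecker vector -/
noncomputable def Hmat [Height.AdmissibleAbsValues K] {r d : ℕ} (S : Fin r → Fin d → K) : ℝ :=
  Height.logHeight (minors S)

end minors

section defined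

variable {K : Type} [Field K]

/-- `S` is a `K`-rational basis of the `Qb`-subspace `U`. -/
def IsBasisOf (φ : K →+* Qb) {r d : ℕ} (S : Fin r → Fin d → K)
    (U : Submodule Qb (Fin d → Qb)) : Prop :=
  LinearIndependent K S ∧ Submodule.span Qb (Set.range fun i => (fun k => φ (S i k))) = U

/-- `U` is defined over `K`. -/
def DefinedOver (φ : K →+* Qb) {d : ℕ} (U : Submodule Qb (Fin d → Qb)) : Prop :=
  ∃ (r : ℕ) (S : Fin r → Fin d → K), IsBasisOf φ S U

open Classical in
/-- the height (relative to `K`, not normalised) of a subspace defined over `K`; junk `0` otherwise. -/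
noncomputable def HK [Height.AdmissibleAbsValues K] (φ : K →+* Qb) {d : ℕ}
    (U : Submodule Qb (Fin d → Qb)) : ℝ :=
  if h : DefinedOver φ U then Hmat h.choose_spec.choose else 0

end defined

end Fermat.Agent.S17.HL
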