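import Fermat.Agent.S17.HL.G1Red

set_option autoImplicit false

/-!
# S17 / HL : local form of (G1):  `vol (a * S) ~ |a|^r vol S`
-/

namespace Fermat.Agent.S17.HL

variable {dj d d3 : ℕ}

theorem g1l_vol_eq_zero {K : Type} [Field K] (v : AbsoluteValue K ℝ) {r e : ℕ}
    (S : Fin r → Fin e → K) (hS : ¬ LinearIndependent K S) : vol v S = 0 := by
  unfold vol nrm
  simp [minors_eq_zero_of_not_linearIndependent S hS]

theorem g1l_vol_fin_zero {K : Type} [Field K] (v : AbsoluteValue K ℝ) {e : ℕ}
    (S : Fin 0 → Fin e → K) : vol v S = 1 := by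
  unfold vol nrm minors
  simp

theorem g1l_minors_smul {K : Type} [Field K] {r e : ℕ} (c : K) (S : Fin r → Fin e → K)
    (f : Fin r → Fin e) : minors (fun i => c • S i) f = c ^ r * minors S f := by
  unfold minors
  have : (Matrix.of fun i k => (c • S i) (f k)) = c • (Matrix.of fun i k => S i (f k)) := by
    ext i k
    simp
  rw [this, Matrix.det_smul, Fintype.card_fin]

theorem g1l_vol_smul_const {K : Type} [Field K] [CharZero K] (v : AbsoluteValue K ℝ) {r e : ℕ} (c : K)
    (x y : (Fin r → Fin e) → K) (h : ∀ f, x f = c * y f) : nrm v x = v c * nrm v y := by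
  have : x = c • y := by
    funext f
    rw [h f]
    rfl
  rw [this, nrm_smul]

/-- **(G1), local form.**  Reduce to the normalised statements: scale `a` by its largest coordinate, replace
`S` by its reduced basis (`exists_reduced`; `minors (a * S) f = minors S I * minors (a * R) f` by
`minors_mulLeft`), take the product of the constants over the finitely many `(i₀, I)`.
If `S` is dependent or `a = 0` both sides vanish. -/
theorem G1_local (T : Tab dj d d3) (hT : T.NoZeroDiv) (r : ℕ) : ∃ M : ℕ, 0 < M ∧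
    ∀ (K : Type) [Field K] [CharZero K] (v : AbsoluteValue K ℝ), GoodAbs v →
      ∀ (a : Fin dj → K) (S : Fin r → Fin d → K),
        vol v (fun i => T.mul a (S i)) ≤ kap M v * (nrm v a ^ r * vol v S) ∧
        nrm v a ^ r * vol v S ≤ kap M v * vol v (fun i => T.mul a (S i)) := by
  classical
  obtain ⟨Mu, hMu0, hMu⟩ := G1_upper_reduced T r
  choose Ml hMl0 hMl using fun p : Fin dj × (Fin r → Fin d) => G1_lower_reduced T hT r p.1 p.2
  have hP0 : 0 < ∏ p, Ml p := Finset.prod_pos fun p _ => hMl0 p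
  have hM0 : 0 < Mu * ∏ p, Ml p := Nat.mul_pos hMu0 hP0
  refine ⟨Mu * ∏ p, Ml p, hM0, ?_⟩
  intro K _ _ v hv a S
  have hk1 : 1 ≤ kap (Mu * ∏ p, Ml p) v := one_le_kap hM0 v
  by_cases hS : LinearIndependent K S
  swap
  · have hS' : ¬ LinearIndependent K (fun i => T.mul a (S i)) := by
      intro h
      exact hS (LinearIndependent.of_comp (T.bil (K := K) a) h)
    rw [g1l_vol_eq_zero v S hS, g1l_vol_eq_zero v _ hS']
    simp
  by_cases ha : a = 0
  · subst ha
    rcases Nat.eq_zero_or_pos r with rfl | hr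
    · rw [g1l_vol_fin_zero, g1l_vol_fin_zero]
      simpa using hk1
    · have hS' : ¬ LinearIndependent K (fun i => T.mul (0 : Fin dj → K) (S i)) := by
        intro h
        apply h.ne_zero ⟨0, hr⟩
        exact LinearMap.map_zero₂ (T.bil (K := K)) _
      have hn : nrm v (0 : Fin dj → K) = 0 := by
        by_contra hne
        exact ((nrm_pos_iff v (0 : Fin dj → K)).mp (lt_of_le_of_ne (nrm_nonneg v _) (Ne.symm hne))) rfl
      rw [g1l_vol_eq_zero v _ hS', hn, zero_pow hr.ne']
      simp
  obtain ⟨j0, hj0⟩ := Function.ne_iff.mp ha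
  have : Nonempty (Fin dj) := ⟨j0⟩
  obtain ⟨i₀, hi₀⟩ := exists_eq_nrm v a
  have hnpos : 0 < nrm v a := (nrm_pos_iff v a).mpr ha
  have hai : a i₀ ≠ 0 := by
    intro h
    rw [h, map_zero] at hi₀
    exact hnpos.ne' hi₀
  obtain ⟨I, R, hred, hne, hvol, hrsp, hmin⟩ := exists_reduced v S hS
  set a' : Fin dj → K := (a i₀)⁻¹ • a with ha'
  have ha1 : a' i₀ = 1 := by simp [ha', hai]
  have hale : ∀ i, v (a' i) ≤ 1 := by
    intro i
    simp only [ha', Pi.smul_apply, smul_eq_mul, map_mul, map_inv₀]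
    rw [← hi₀, inv_mul_le_iff₀ hnpos, mul_one]
    exact le_nrm v a i
  have haa : a = a i₀ • a' := by
    rw [ha', smul_smul, mul_inv_cancel₀ hai, one_smul]
  have hSi : ∀ i, S i = ∑ k, S i (I k) • R k := by
    intro i
    apply hred.eq_sum
    rw [hrsp]
    exact Submodule.subset_span ⟨i, rfl⟩
  have hfam : (fun i => T.mul a (S i)) =
      fun i => ∑ k, (Matrix.of fun i k => S i (I k)) i k • (fun k => a i₀ • T.mul a' (R k)) k := by
    funext i
    have h1 : T.mul a (S i) = T.bil (K := K) a (∑ k, S i (I k) • R k) := by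
      rw [← hSi i]; rfl
    rw [h1, map_sum]
    apply Finset.sum_congr rfl
    intro k _
    rw [map_smul, Matrix.of_apply, Tab.bil_apply]
    congr 1
    conv_lhs => rw [haa]
    rw [Tab.mul_smul_left]
  have hminors : ∀ f, minors (fun i => T.mul a (S i)) f =
      (minors S I * a i₀ ^ r) * minors (fun i => T.mul a' (R i)) f := by
    intro f
    rw [hfam, minors_mulLeft, g1l_minors_smul, mul_assoc]
    rfl
  have hvolaS : vol v (fun i => T.mul a (S i)) =
      (vol v S * nrm v a ^ r) * vol v (fun i => T.mul a' (R i)) := by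
    unfold vol at hvol ⊢
    rw [g1l_vol_smul_const v _ _ _ hminors, map_mul, map_pow, ← hi₀, hvol]
  have hup := hMu K v hv a' R hale hred.le_one
  have hlo := hMl (i₀, I) K v hv a' R ha1 hale hred
  have hkup : kap Mu v ≤ kap (Mu * ∏ p, Ml p) v := kap_le_of_dvd hM0 (Dvd.intro _ rfl) v
  have hklo : kap (Ml (i₀, I)) v ≤ kap (Mu * ∏ p, Ml p) v :=
    kap_le_of_dvd hM0 (Dvd.dvd.mul_left (Finset.dvd_prod_of_mem Ml (Finset.mem_univ _)) _) v
  have hX0 : 0 ≤ vol v S * nrm v a ^ r := mul_nonneg (vol_nonneg v S) (pow_nonneg hnpos.le r)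
  have hV0 : 0 ≤ vol v (fun i => T.mul a' (R i)) := vol_nonneg v _
  constructor
  · rw [hvolaS]
    calc vol v S * nrm v a ^ r * vol v (fun i => T.mul a' (R i))
        ≤ vol v S * nrm v a ^ r * kap (Mu * ∏ p, Ml p) v :=
          mul_le_mul_of_nonneg_left (hup.trans hkup) hX0
      _ = kap (Mu * ∏ p, Ml p) v * (nrm v a ^ r * vol v S) := by ring
  · rw [hvolaS]
    calc nrm v a ^ r * vol v S = vol v S * nrm v a ^ r * 1 := by ring
      _ ≤ vol v S * nrm v a ^ r * (kap (Mu * ∏ p, Ml p) v * vol v (fun i => T.mul a' (R i))) := by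
          apply mul_le_mul_of_nonneg_left _ hX0
          exact hlo.trans (mul_le_mul_of_nonneg_right hklo hV0)
      _ = kap (Mu * ∏ p, Ml p) v *
          (vol v S * nrm v a ^ r * vol v (fun i => T.mul a' (R i))) := by ring

end Fermat.Agent.S17.HL
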