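import Fermat.Agent.S17.HL.Reduced

set_option autoImplicit false

/-!
# S17 / HL : `vol (t :: S) / vol S` is the `v`-adic distance from `t` to the row space of `S`
-/

namespace Fermat.Agent.S17.HL

variable {K : Type} [Field K]

/-- Laplace expansion along the first row (`Matrix.det_succ_row_zero`). -/
theorem minors_consRow {r d : ℕ} (S : Fin r → Fin d → K) (t : Fin d → K)
    (f : Fin (r + 1) → Fin d) :
    minors (consRow t S) f =
      ∑ j : Fin (r + 1), (-1) ^ (j : ℕ) * t (f j) * minors S (fun k => f (j.succAbove k)) := by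
  unfold minors
  rw [Matrix.det_succ_row_zero]
  rfl

theorem laplace_minors_add {r d : ℕ} (S : Fin r → Fin d → K) (t w : Fin d → K)
    (f : Fin (r + 1) → Fin d) :
    minors (consRow (t + w) S) f = minors (consRow t S) f + minors (consRow w S) f := by
  rw [minors_consRow, minors_consRow, minors_consRow, ← Finset.sum_add_distrib]
  apply Finset.sum_congr rfl
  intro j _
  rw [Pi.add_apply]
  ring

/-- adding an element of the row space to the first row does not change the minors. -/
theorem minors_consRow_add {r d : ℕ} (S : Fin r → Fin d → K) (t w : Fin d → K) (hw : w ∈ rsp S)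
    (f : Fin (r + 1) → Fin d) : minors (consRow (t + w) S) f = minors (consRow t S) f := by
  rw [laplace_minors_add]
  have : minors (consRow w S) f = 0 := by
    apply minors_eq_zero_of_not_linearIndependent
    intro hli
    exact (linearIndependent_finCons.mp hli).2 hw
  rw [this, add_zero]

theorem minors_consRow_smul {r d : ℕ} (S : Fin r → Fin d → K) (c : K) (t : Fin d → K)
    (f : Fin (r + 1) → Fin d) : minors (consRow (c • t) S) f = c * minors (consRow t S) f := by
  rw [minors_consRow, minors_consRow, Finset.mul_sum]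
  apply Finset.sum_congr rfl
  intro j _
  rw [Pi.smul_apply, smul_eq_mul]
  ring

theorem vol_consRow_add (v : AbsoluteValue K ℝ) {r d : ℕ} (S : Fin r → Fin d → K)
    (t w : Fin d → K) (hw : w ∈ rsp S) : vol v (consRow (t + w) S) = vol v (consRow t S) := by
  unfold vol
  congr 1
  funext f
  exact minors_consRow_add S t w hw f

theorem vol_nonneg (v : AbsoluteValue K ℝ) {r d : ℕ} (S : Fin r → Fin d → K) : 0 ≤ vol v S :=
  Real.iSup_nonneg fun _ => v.nonneg _

theorem vol_pos (v : AbsoluteValue K ℝ) {r d : ℕ} (S : Fin r → Fin d → K)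
    (hS : LinearIndependent K S) : 0 < vol v S := by
  obtain ⟨f, hf⟩ := exists_minors_ne_zero S hS
  exact lt_of_lt_of_le (v.pos hf) (reduced_nrm_le v (minors S) f)

/-- upper bound (Laplace). -/
theorem vol_consRow_le [CharZero K] {v : AbsoluteValue K ℝ} (hv : GoodAbs v) {r d : ℕ}
    (S : Fin r → Fin d → K) (t : Fin d → K) :
    vol v (consRow t S) ≤ kap (r + 1) v * (nrm v t * vol v S) := by
  have hB0 : 0 ≤ nrm v t * vol v S := mul_nonneg (nrm_nonneg v t) (vol_nonneg v S)
  apply nrm_le (mul_nonneg (kap_pos (Nat.succ_pos r) v).le hB0)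
  intro f
  rw [minors_consRow]
  apply abv_sum_le_kap hv _ _ hB0 _ (Nat.succ_pos r) (by simp)
  intro j _
  rw [map_mul, map_mul, map_pow, AbsoluteValue.map_neg, map_one, one_pow, one_mul]
  exact mul_le_mul (le_nrm v t _) (reduced_nrm_le v (minors S) _) (v.nonneg _) (nrm_nonneg v t)

/-- lower bound: with `I` the maximal minor of `S` and `R` the reduced basis, `w = ∑ t (I i) • R i` kills
the pivot coordinates of `t - w`, and the minor of `consRow (t - w) S` on `(j, I)` is `(t - w) j * minors S I`. -/
theorem exists_vol_mul_nrm_sub_le (v : AbsoluteValue K ℝ) {r d : ℕ} (S : Fin r → Fin d → K)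
    (hS : LinearIndependent K S) (t : Fin d → K) :
    ∃ w ∈ rsp S, vol v S * nrm v (t - w) ≤ vol v (consRow t S) := by
  classical
  obtain ⟨I, R, hred, hne, hvol, hrsp, -⟩ := exists_reduced v S hS
  have hwmem : (∑ i, t (I i) • R i) ∈ rsp S := by
    rw [← hrsp]
    exact Submodule.sum_mem _ fun k _ => Submodule.smul_mem _ _ (Submodule.subset_span ⟨k, rfl⟩)
  refine ⟨∑ i, t (I i) • R i, hwmem, ?_⟩
  set w := ∑ i, t (I i) • R i with hw
  have hzero : ∀ k, (t - w) (I k) = 0 := by
    intro k
    simp [hw, Finset.sum_apply, hred.pivot]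
  have hvoleq : vol v (consRow (t - w) S) = vol v (consRow t S) := by
    rw [sub_eq_add_neg]
    exact vol_consRow_add v S t (-w) (Submodule.neg_mem _ hwmem)
  have hpos : 0 < vol v S := vol_pos v S hS
  have key : ∀ j, v ((t - w) j) ≤ vol v (consRow t S) / vol v S := by
    intro j
    rw [le_div_iff₀ hpos, ← hvoleq, hvol, ← map_mul]
    have h1 : minors (consRow (t - w) S) (Fin.cons j I) = (t - w) j * minors S I := by
      rw [minors_consRow, Fin.sum_univ_succ]
      have h2 : ∀ k : Fin r, (-1 : K) ^ ((k.succ : Fin (r + 1)) : ℕ) *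
          (t - w) ((Fin.cons j I : Fin (r + 1) → Fin d) k.succ) *
          minors S (fun l => (Fin.cons j I : Fin (r + 1) → Fin d) (k.succ.succAbove l)) = 0 := by
        intro k
        rw [Fin.cons_succ, hzero]
        ring
      rw [Finset.sum_eq_zero (fun k _ => h2 k), add_zero]
      simp
    rw [← h1]
    exact reduced_nrm_le v (minors (consRow (t - w) S)) _
  have h3 : nrm v (t - w) ≤ vol v (consRow t S) / vol v S :=
    Real.iSup_le key (div_nonneg (vol_nonneg v _) hpos.le)
  rw [le_div_iff₀ hpos] at h3
  linarith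

end Fermat.Agent.S17.HL
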