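import Fermat.Agent.S17.HL.Rank

set_option autoImplicit false

/-!
# S17 / HL : bilinear tables
-/

namespace Fermat.Agent.S17.HL

variable {d₁ d₂ d₃ : ℕ} (T : Tab d₁ d₂ d₃) {K : Type} [Field K]

/-- the span of the products -/
def Tab.prod (A : Submodule K (Fin d₁ → K)) (B : Submodule K (Fin d₂ → K)) :
    Submodule K (Fin d₃ → K) :=
  Submodule.span K {x | ∃ a ∈ A, ∃ b ∈ B, x = T.mul a b}

theorem Tab.mul_add_left (a a' : Fin d₁ → K) (b : Fin d₂ → K) :
    T.mul (a + a') b = T.mul a b + T.mul a' b := by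
  funext l
  simp only [Tab.mul, Pi.add_apply, ← Finset.sum_add_distrib]
  refine Finset.sum_congr rfl fun i _ => Finset.sum_congr rfl fun j _ => ?_
  ring

theorem Tab.mul_add_right (a : Fin d₁ → K) (b b' : Fin d₂ → K) :
    T.mul a (b + b') = T.mul a b + T.mul a b' := by
  funext l
  simp only [Tab.mul, Pi.add_apply, ← Finset.sum_add_distrib]
  refine Finset.sum_congr rfl fun i _ => Finset.sum_congr rfl fun j _ => ?_
  ring

theorem Tab.mul_smul_left (c : K) (a : Fin d₁ → K) (b : Fin d₂ → K) :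
    T.mul (c • a) b = c • T.mul a b := by
  funext l
  simp only [Tab.mul, Pi.smul_apply, smul_eq_mul, Finset.mul_sum]
  refine Finset.sum_congr rfl fun i _ => Finset.sum_congr rfl fun j _ => ?_
  ring

theorem Tab.mul_smul_right (c : K) (a : Fin d₁ → K) (b : Fin d₂ → K) :
    T.mul a (c • b) = c • T.mul a b := by
  funext l
  simp only [Tab.mul, Pi.smul_apply, smul_eq_mul, Finset.mul_sum]
  refine Finset.sum_congr rfl fun i _ => Finset.sum_congr rfl fun j _ => ?_
  ring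

/-- the bilinear map attached to a table -/
noncomputable def Tab.bil : (Fin d₁ → K) →ₗ[K] (Fin d₂ → K) →ₗ[K] (Fin d₃ → K) :=
  LinearMap.mk₂ K (fun a b => T.mul a b) (T.mul_add_left) (T.mul_smul_left) (T.mul_add_right)
    (T.mul_smul_right)

@[simp] theorem Tab.bil_apply (a : Fin d₁ → K) (b : Fin d₂ → K) : T.bil a b = T.mul a b := rfl

theorem Tab.mul_sub_left (a a' : Fin d₁ → K) (b : Fin d₂ → K) :
    T.mul (a - a') b = T.mul a b - T.mul a' b := by
  exact LinearMap.map_sub₂ (T.bil (K := K)) a a' b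

theorem Tab.mul_sub_right (a : Fin d₁ → K) (b b' : Fin d₂ → K) :
    T.mul a (b - b') = T.mul a b - T.mul a b' := by
  exact (T.bil (K := K) a).map_sub b b'

theorem Tab.mul_map {L : Type} [Field L] (φ : K →+* L) (a : Fin d₁ → K) (b : Fin d₂ → K)
    (l : Fin d₃) : T.mul (fun i => φ (a i)) (fun j => φ (b j)) l = φ (T.mul a b l) := by
  simp only [Tab.mul, map_sum, map_mul, map_ratCast]

theorem Tab.mul_mem_prod {A : Submodule K (Fin d₁ → K)} {B : Submodule K (Fin d₂ → K)}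
    {a : Fin d₁ → K} {b : Fin d₂ → K} (ha : a ∈ A) (hb : b ∈ B) : T.mul a b ∈ T.prod A B :=
  Submodule.subset_span ⟨a, ha, b, hb, rfl⟩

theorem Tab.prod_le {A : Submodule K (Fin d₁ → K)} {B : Submodule K (Fin d₂ → K)}
    {C : Submodule K (Fin d₃ → K)} (h : ∀ a ∈ A, ∀ b ∈ B, T.mul a b ∈ C) : T.prod A B ≤ C :=
  Submodule.span_le.mpr (by rintro _ ⟨a, ha, b, hb, rfl⟩; exact h a ha b hb)

theorem Tab.prod_eq_map₂ (A : Submodule K (Fin d₁ → K)) (B : Submodule K (Fin d₂ → K)) :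
    T.prod A B = Submodule.map₂ (T.bil (K := K)) A B := by
  apply le_antisymm
  · exact T.prod_le fun a ha b hb => Submodule.apply_mem_map₂ (T.bil (K := K)) ha hb
  · exact Submodule.map₂_le.mpr fun a ha b hb => T.mul_mem_prod ha hb

theorem Tab.span_fam {r : ℕ} (S : Fin r → Fin d₂ → K) :
    Submodule.span K (Set.range (T.fam S)) = T.prod ⊤ (rsp S) := by
  rw [Tab.prod_eq_map₂, ← (Pi.basisFun K (Fin d₁)).span_eq, rsp, Submodule.map₂_span_span,
    Set.image2_range]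
  congr 2
  funext p
  simp [Tab.fam]

theorem Tab.span_fam₂ {r r' : ℕ} (S : Fin r → Fin d₁ → K) (S' : Fin r' → Fin d₂ → K) :
    Submodule.span K (Set.range (T.fam₂ S S')) = T.prod (rsp S) (rsp S') := by
  rw [Tab.prod_eq_map₂, rsp, rsp, Submodule.map₂_span_span, Set.image2_range]
  rfl

/-- trivial upper bound for products. -/
theorem Tab.exists_nrm_mul_le : ∃ M : ℕ, 0 < M ∧
    ∀ (L : Type) [Field L] [CharZero L] (v : AbsoluteValue L ℝ), GoodAbs v →
      ∀ (a : Fin d₁ → L) (b : Fin d₂ → L), nrm v (T.mul a b) ≤ kap M v * (nrm v a * nrm v b) := by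
  choose m hm0 hm using fun p : Fin d₁ × Fin d₂ × Fin d₃ => exists_ratCast_le_kap (T p.1 p.2.1 p.2.2)
  have hP0 : 0 < ∏ p, m p := Finset.prod_pos fun p _ => hm0 p
  refine ⟨(d₁ * d₂ + 1) * ∏ p, m p, Nat.mul_pos (Nat.succ_pos _) hP0, ?_⟩
  intro L _ _ v hv a b
  have hB0 : 0 ≤ nrm v a * nrm v b := mul_nonneg (nrm_nonneg v a) (nrm_nonneg v b)
  have hk0 : 0 ≤ kap (∏ p, m p) v := (kap_pos hP0 v).le
  rw [kap_mul, mul_assoc]
  apply nrm_le (mul_nonneg (kap_pos (Nat.succ_pos _) v).le (mul_nonneg hk0 hB0))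
  intro l
  have h1 : T.mul a b l = ∑ p ∈ (Finset.univ : Finset (Fin d₁ × Fin d₂)),
      ((T p.1 p.2 l : ℚ) : L) * a p.1 * b p.2 := by
    rw [← Finset.univ_product_univ, Finset.sum_product]
    rfl
  rw [h1]
  apply abv_sum_le_kap hv _ _ (mul_nonneg hk0 hB0) _ (Nat.succ_pos _) (by simp)
  intro p _
  rw [map_mul, map_mul, mul_assoc]
  apply mul_le_mul _ (mul_le_mul (le_nrm v a _) (le_nrm v b _) (v.nonneg _) (nrm_nonneg v a))
    (mul_nonneg (v.nonneg _) (v.nonneg _)) hk0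
  exact (hm (p.1, p.2, l) L v hv).trans
    (kap_le_of_dvd hP0 (Finset.dvd_prod_of_mem m (Finset.mem_univ _)) v)

/-- the geometric hypothesis of uniform surjectivity (to be proved in GEO by the base point free
pencil trick). -/
def HypUS {dj d dmj dj' d' dmj' d'' : ℕ} (Tj : Tab dj d dmj) (Tj' : Tab dj' d' dmj')
    (T : Tab d d' d'') (r ρ r' ρ' r'' : ℕ) : Prop :=
  ∀ (U : Submodule Qb (Fin d → Qb)) (U' : Submodule Qb (Fin d' → Qb)),
    Module.finrank Qb U = r → Module.finrank Qb U' = r' →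
    Module.finrank Qb (Tj.prod ⊤ U) ≤ ρ → Module.finrank Qb (Tj'.prod ⊤ U') ≤ ρ' →
    r'' ≤ Module.finrank Qb (T.prod U U')

end Fermat.Agent.S17.HL
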