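import Fermat.Agent.S17.HL.UP
import Fermat.Agent.S17.HL.Tab
import Fermat.Agent.S17.HL.Laplace

set_option autoImplicit false

/-!
# S17 / HL : the key lower bound for uniform surjectivity
-/

namespace Fermat.Agent.S17.HL

open MvPolynomial

section poly

variable {σ : Type}

/-- polynomial version of `Tab.mul`. -/
noncomputable def mulP {d₁ d₂ d₃ : ℕ} (T : Tab d₁ d₂ d₃) (a : Fin d₁ → MvPolynomial σ ℚ)
    (b : Fin d₂ → MvPolynomial σ ℚ) : Fin d₃ → MvPolynomial σ ℚ :=
  fun l => ∑ i, ∑ j, MvPolynomial.C (T i j l) * a i * b j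

/-- polynomial version of `minors`. -/
noncomputable def minorsP {n d : ℕ} (S : Fin n → Fin d → MvPolynomial σ ℚ) (f : Fin n → Fin d) :
    MvPolynomial σ ℚ :=
  Matrix.det (Matrix.of fun i k => S i (f k))

variable {K : Type} [Field K] [CharZero K] (x : σ → K)

theorem evq_mulP {d₁ d₂ d₃ : ℕ} (T : Tab d₁ d₂ d₃) (a : Fin d₁ → MvPolynomial σ ℚ)
    (b : Fin d₂ → MvPolynomial σ ℚ) (l : Fin d₃) :
    evq x (mulP T a b l) = T.mul (fun i => evq x (a i)) (fun j => evq x (b j)) l := by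
  simp only [evq_eq_hom, mulP, Tab.mul, map_sum, map_mul, eval₂Hom_C, Rat.coe_castHom]

theorem evq_minorsP {n d : ℕ} (S : Fin n → Fin d → MvPolynomial σ ℚ) (f : Fin n → Fin d) :
    evq x (minorsP S f) = minors (fun i k => evq x (S i k)) f := by
  rw [evq_eq_hom, minorsP, RingHom.map_det]
  rfl

theorem evq_single {d : ℕ} (k : Fin d) :
    (fun i => evq x ((Pi.single k 1 : Fin d → MvPolynomial σ ℚ) i)) = Pi.single k 1 := by
  funext i
  by_cases h : i = k
  · subst h
    simp [evq_eq_hom]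
  · simp [evq_eq_hom, Pi.single_eq_of_ne h]

theorem evq_X (s : σ) : evq x (X s) = x s := by
  simp [evq_eq_hom]

end poly

section main

variable {dj d dmj dj' d' dmj' d'' : ℕ}

/-- the variables. -/
abbrev USVar (r d r' d' : ℕ) : Type := (Fin r × Fin d) ⊕ (Fin r' × Fin d')

/-- the generic first matrix. -/
noncomputable def genL (r d r' d' : ℕ) : Fin r → Fin d → MvPolynomial (USVar r d r' d') ℚ :=
  fun i j => X (Sum.inl (i, j))

/-- the generic second matrix. -/
noncomputable def genR (r d r' d' : ℕ) : Fin r' → Fin d' → MvPolynomial (USVar r d r' d') ℚ :=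
  fun i j => X (Sum.inr (i, j))

/-- the point attached to a pair of matrices. -/
def usPt {K : Type} {r d r' d' : ℕ} (R : Fin r → Fin d → K) (R' : Fin r' → Fin d' → K) :
    USVar r d r' d' → K :=
  Sum.elim (fun p => R p.1 p.2) (fun p => R' p.1 p.2)

theorem evq_genL {K : Type} [Field K] [CharZero K] {r d r' d' : ℕ} (R : Fin r → Fin d → K)
    (R' : Fin r' → Fin d' → K) (i : Fin r) :
    (fun j => evq (usPt R R') (genL r d r' d' i j)) = R i := by
  funext j
  simp [genL, evq_X, usPt]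

theorem evq_genR {K : Type} [Field K] [CharZero K] {r d r' d' : ℕ} (R : Fin r → Fin d → K)
    (R' : Fin r' → Fin d' → K) (i : Fin r') :
    (fun j => evq (usPt R R') (genR r d r' d' i j)) = R' i := by
  funext j
  simp [genR, evq_X, usPt]

/-- the pivot equations. -/
noncomputable def pivP {σ : Type} {r d : ℕ} (I : Fin r → Fin d) (S : Fin r → Fin d → MvPolynomial σ ℚ) :
    Fin r × Fin r → MvPolynomial σ ℚ :=
  fun p => S p.1 (I p.2) - if p.1 = p.2 then 1 else 0

/-- the rank equations. -/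
noncomputable def rkP {σ : Type} {dj d dmj r : ℕ} (Tj : Tab dj d dmj) (ρ : ℕ)
    (S : Fin r → Fin d → MvPolynomial σ ℚ) :
    (Fin (ρ + 1) → Fin dj × Fin r) × (Fin (ρ + 1) → Fin dmj) → MvPolynomial σ ℚ :=
  fun p => minorsP (fun a => mulP Tj (Pi.single (p.1 a).1 1) (S (p.1 a).2)) p.2

theorem evq_pivP {σ K : Type} [Field K] [CharZero K] (x : σ → K) {r d : ℕ} (I : Fin r → Fin d)
    (S : Fin r → Fin d → MvPolynomial σ ℚ) (p : Fin r × Fin r) :
    evq x (pivP I S p) = evq x (S p.1 (I p.2)) - if p.1 = p.2 then 1 else 0 := by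
  simp only [pivP, evq_eq_hom, map_sub]
  split_ifs <;> simp

theorem evq_rkP {σ K : Type} [Field K] [CharZero K] (x : σ → K) {dj d dmj r : ℕ}
    (Tj : Tab dj d dmj) (ρ : ℕ) (S : Fin r → Fin d → MvPolynomial σ ℚ)
    (p : (Fin (ρ + 1) → Fin dj × Fin r) × (Fin (ρ + 1) → Fin dmj)) :
    evq x (rkP Tj ρ S p) =
      minors (fun a => Tj.fam (fun i j => evq x (S i j)) (p.1 a)) p.2 := by
  rw [rkP, evq_minorsP]
  congr 1
  funext a l
  rw [evq_mulP, evq_single]
  rfl

/-- all the equations vanish iff pivots + rank conditions. -/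
theorem rk_iff {K : Type} [Field K] {dj d dmj r : ℕ} (Tj : Tab dj d dmj) (ρ : ℕ)
    (R : Fin r → Fin d → K) :
    Module.finrank K (Tj.prod ⊤ (rsp R)) ≤ ρ ↔
      ∀ p : (Fin (ρ + 1) → Fin dj × Fin r) × (Fin (ρ + 1) → Fin dmj),
        minors (fun a => Tj.fam R (p.1 a)) p.2 = 0 := by
  rw [← Tab.span_fam, finrank_span_le_iff]
  exact ⟨fun h p => h p.1 p.2, fun h g f => h (g, f)⟩

theorem US_minor (Tj : Tab dj d dmj) (Tj' : Tab dj' d' dmj') (T : Tab d d' d'')
    (r ρ r' ρ' r'' : ℕ) (h : HypUS Tj Tj' T r ρ r' ρ' r'') (I : Fin r → Fin d)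
    (I' : Fin r' → Fin d') : ∃ M : ℕ, 0 < M ∧
    ∀ (K : Type) [Field K] [CharZero K] (v : AbsoluteValue K ℝ), GoodAbs v →
      ∀ (R : Fin r → Fin d → K) (R' : Fin r' → Fin d' → K), IsReduced v I R → IsReduced v I' R' →
        Module.finrank K (Tj.prod ⊤ (rsp R)) ≤ ρ → Module.finrank K (Tj'.prod ⊤ (rsp R')) ≤ ρ' →
        ∃ (g : Fin r'' → Fin r × Fin r') (f : Fin r'' → Fin d''),
          1 ≤ kap M v * v (minors (fun a => T.fam₂ R R' (g a)) f) := by
  classical
  let GX := genL r d r' d'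
  let GY := genR r d r' d'
  let Φ := Sum.elim (Sum.elim (pivP I GX) (pivP I' GY)) (Sum.elim (rkP Tj ρ GX) (rkP Tj' ρ' GY))
  let Ψ : (Fin r'' → Fin r × Fin r') × (Fin r'' → Fin d'') → MvPolynomial (USVar r d r' d') ℚ :=
    fun p => minorsP (fun a => mulP T (GX (p.1 a).1) (GY (p.1 a).2)) p.2
  -- evaluation of `Ψ`
  have hΨ : ∀ (K : Type) [Field K] [CharZero K] (R : Fin r → Fin d → K) (R' : Fin r' → Fin d' → K)
      (p : (Fin r'' → Fin r × Fin r') × (Fin r'' → Fin d'')),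
      evq (usPt R R') (Ψ p) = minors (fun a => T.fam₂ R R' (p.1 a)) p.2 := by
    intro K _ _ R R' p
    simp only [Ψ]
    rw [evq_minorsP]
    congr 1
    funext a l
    rw [evq_mulP, evq_genL, evq_genR]
    rfl
  -- vanishing of `Φ`
  have hΦ : ∀ (K : Type) [Field K] [CharZero K] (R : Fin r → Fin d → K) (R' : Fin r' → Fin d' → K),
      (∀ i, evq (usPt R R') (Φ i) = 0) ↔
        ((∀ i k, R i (I k) = if i = k then 1 else 0) ∧ (∀ i k, R' i (I' k) = if i = k then 1 else 0))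
        ∧ (Module.finrank K (Tj.prod ⊤ (rsp R)) ≤ ρ ∧ Module.finrank K (Tj'.prod ⊤ (rsp R')) ≤ ρ') := by
    intro K _ _ R R'
    have eL : (fun i j => evq (usPt R R') (GX i j)) = R := funext fun i => evq_genL R R' i
    have eR : (fun i j => evq (usPt R R') (GY i j)) = R' := funext fun i => evq_genR R R' i
    simp only [Φ, Sum.forall, Sum.elim_inl, Sum.elim_inr, evq_pivP, evq_rkP, eL, eR, rk_iff,
      sub_eq_zero, Prod.forall]
    have e1 : ∀ i j, evq (usPt R R') (GX i j) = R i j := fun i j => congrFun (congrFun eL i) j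
    have e2 : ∀ i j, evq (usPt R R') (GY i j) = R' i j := fun i j => congrFun (congrFun eR i) j
    simp only [e1, e2]
  obtain ⟨M, hM, hUP⟩ := UP Φ Ψ (by
    intro x hx
    -- recover the matrices
    let R : Fin r → Fin d → Qb := fun i j => x (Sum.inl (i, j))
    let R' : Fin r' → Fin d' → Qb := fun i j => x (Sum.inr (i, j))
    have hxe : x = usPt R R' := by
      funext s
      rcases s with ⟨i, j⟩ | ⟨i, j⟩ <;> rfl
    rw [hxe] at hx ⊢
    obtain ⟨⟨hp, hp'⟩, hr, hr'⟩ := (hΦ Qb R R').1 hx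
    have htriv : ∀ z : Qb, (AbsoluteValue.trivial : AbsoluteValue Qb ℝ) z ≤ 1 := by
      intro z
      by_cases hz : z = 0
      · simp [hz]
      · rw [AbsoluteValue.trivial_apply hz]
    have hred : IsReduced (AbsoluteValue.trivial : AbsoluteValue Qb ℝ) I R :=
      ⟨hp, fun i j => htriv _⟩
    have hred' : IsReduced (AbsoluteValue.trivial : AbsoluteValue Qb ℝ) I' R' :=
      ⟨hp', fun i j => htriv _⟩
    have h1 : Module.finrank Qb (rsp R) = r := by
      rw [rsp, finrank_span_eq_card hred.linearIndependent, Fintype.card_fin]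
    have h2 : Module.finrank Qb (rsp R') = r' := by
      rw [rsp, finrank_span_eq_card hred'.linearIndependent, Fintype.card_fin]
    have h3 := h (rsp R) (rsp R') h1 h2 hr hr'
    rw [← Tab.span_fam₂] at h3
    obtain ⟨g, f, hgf⟩ := exists_minors_ne_zero_of_le_finrank _ _ h3
    exact ⟨(g, f), by rw [hΨ]; exact hgf⟩)
  refine ⟨M, hM, ?_⟩
  intro K _ _ v hv R R' hR hR' hρ hρ'
  obtain ⟨⟨g, f⟩, hgf⟩ := hUP K v hv (usPt R R')
    (by
      rintro (⟨i, j⟩ | ⟨i, j⟩)
      · exact hR.le_one i j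
      · exact hR'.le_one i j)
    ((hΦ K R R').2 ⟨⟨hR.pivot, hR'.pivot⟩, hρ, hρ'⟩)
  rw [hΨ] at hgf
  exact ⟨g, f, hgf⟩

end main

end Fermat.Agent.S17.HL
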