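import Fermat.Agent.S17.HL.UP
import Fermat.Agent.S17.HL.Tab
import Fermat.Agent.S17.HL.Laplace
import Fermat.Agent.S17.HL.USMinor

set_option autoImplicit false

/-!
# S17 / HL : local form of (G1), normalised statements
-/

namespace Fermat.Agent.S17.HL

open MvPolynomial

variable {dj d d3 : ℕ}

/-- the variables of (G1). -/
abbrev G1Var (dj r d : ℕ) : Type := Fin dj ⊕ (Fin r × Fin d)

/-- the generic vector. -/
noncomputable def g1A (dj r d : ℕ) : Fin dj → MvPolynomial (G1Var dj r d) ℚ :=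
  fun i => X (Sum.inl i)

/-- the generic matrix. -/
noncomputable def g1R (dj r d : ℕ) : Fin r → Fin d → MvPolynomial (G1Var dj r d) ℚ :=
  fun i j => X (Sum.inr (i, j))

/-- the point attached to a vector and a matrix. -/
def g1Pt {K : Type} {dj r d : ℕ} (a : Fin dj → K) (R : Fin r → Fin d → K) : G1Var dj r d → K :=
  Sum.elim a (fun p => R p.1 p.2)

theorem evq_g1A {K : Type} [Field K] [CharZero K] {dj r d : ℕ} (a : Fin dj → K)
    (R : Fin r → Fin d → K) : (fun i => evq (g1Pt a R) (g1A dj r d i)) = a := by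
  funext i
  simp [g1A, evq_X, g1Pt]

theorem evq_g1R {K : Type} [Field K] [CharZero K] {dj r d : ℕ} (a : Fin dj → K)
    (R : Fin r → Fin d → K) (i : Fin r) : (fun j => evq (g1Pt a R) (g1R dj r d i j)) = R i := by
  funext j
  simp [g1R, evq_X, g1Pt]

/-- the minors of `(a * R_i)` as polynomials. -/
noncomputable def g1Psi (T : Tab dj d d3) (r : ℕ) (f : Fin r → Fin d3) :
    MvPolynomial (G1Var dj r d) ℚ :=
  minorsP (fun i => mulP T (g1A dj r d) (g1R dj r d i)) f

theorem evq_g1Psi {K : Type} [Field K] [CharZero K] (T : Tab dj d d3) {r : ℕ} (a : Fin dj → K)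
    (R : Fin r → Fin d → K) (f : Fin r → Fin d3) :
    evq (g1Pt a R) (g1Psi T r f) = minors (fun i => T.mul a (R i)) f := by
  rw [g1Psi, evq_minorsP]
  congr 1
  funext i l
  rw [evq_mulP, evq_g1A, evq_g1R]

theorem G1_lower_reduced (T : Tab dj d d3) (hT : T.NoZeroDiv) (r : ℕ) (i₀ : Fin dj)
    (I : Fin r → Fin d) : ∃ M : ℕ, 0 < M ∧
    ∀ (K : Type) [Field K] [CharZero K] (v : AbsoluteValue K ℝ), GoodAbs v →
      ∀ (a : Fin dj → K) (R : Fin r → Fin d → K), a i₀ = 1 → (∀ i, v (a i) ≤ 1) →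
        IsReduced v I R → 1 ≤ kap M v * vol v (fun i => T.mul a (R i)) := by
  classical
  let Φ : Unit ⊕ (Fin r × Fin r) → MvPolynomial (G1Var dj r d) ℚ :=
    Sum.elim (fun _ => g1A dj r d i₀ - 1) (pivP I (g1R dj r d))
  have hΦ : ∀ (K : Type) [Field K] [CharZero K] (a : Fin dj → K) (R : Fin r → Fin d → K),
      (∀ i, evq (g1Pt a R) (Φ i) = 0) ↔
        (a i₀ = 1 ∧ ∀ i k, R i (I k) = if i = k then 1 else 0) := by
    intro K _ _ a R
    have e1 : ∀ i, evq (g1Pt a R) (g1A dj r d i) = a i := fun i => congrFun (evq_g1A a R) i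
    have e2 : ∀ i j, evq (g1Pt a R) (g1R dj r d i j) = R i j :=
      fun i j => congrFun (evq_g1R a R i) j
    have e3 : evq (g1Pt a R) (g1A dj r d i₀ - 1) = a i₀ - 1 := by
      rw [← e1 i₀]
      simp only [evq_eq_hom, map_sub, map_one]
    simp only [Φ, Sum.forall, Sum.elim_inl, Sum.elim_inr, evq_pivP, e2, e3, sub_eq_zero,
      Prod.forall, forall_const]
  obtain ⟨M, hM, hUP⟩ := UP Φ (g1Psi T r) (by
    intro x hx
    let a : Fin dj → Qb := fun i => x (Sum.inl i)
    let R : Fin r → Fin d → Qb := fun i j => x (Sum.inr (i, j))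
    have hxe : x = g1Pt a R := by
      funext s
      rcases s with i | ⟨i, j⟩ <;> rfl
    rw [hxe] at hx ⊢
    obtain ⟨ha, hp⟩ := (hΦ Qb a R).1 hx
    have htriv : ∀ z : Qb, (AbsoluteValue.trivial : AbsoluteValue Qb ℝ) z ≤ 1 := by
      intro z
      by_cases hz : z = 0
      · simp [hz]
      · rw [AbsoluteValue.trivial_apply hz]
    have hred : IsReduced (AbsoluteValue.trivial : AbsoluteValue Qb ℝ) I R :=
      ⟨hp, fun i j => htriv _⟩
    have ha0 : a ≠ 0 := by
      intro h0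
      rw [h0] at ha
      exact zero_ne_one ha
    have hker : LinearMap.ker (T.bil (K := Qb) a) = ⊥ := by
      rw [LinearMap.ker_eq_bot']
      intro b hb
      exact (hT a b hb).resolve_left ha0
    have hind : LinearIndependent Qb (fun i => T.mul a (R i)) :=
      hred.linearIndependent.map' (T.bil (K := Qb) a) hker
    obtain ⟨f, hf⟩ := exists_minors_ne_zero _ hind
    exact ⟨f, by rw [evq_g1Psi]; exact hf⟩)
  refine ⟨M, hM, ?_⟩
  intro K _ _ v hv a R ha hale hR
  obtain ⟨f, hf⟩ := hUP K v hv (g1Pt a R)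
    (by
      rintro (i | ⟨i, j⟩)
      · exact hale i
      · exact hR.le_one i j)
    ((hΦ K a R).2 ⟨ha, hR.pivot⟩)
  rw [evq_g1Psi] at hf
  refine hf.trans ?_
  exact mul_le_mul_of_nonneg_left (le_nrm v _ f) (kap_pos hM v).le

theorem G1_upper_reduced (T : Tab dj d d3) (r : ℕ) : ∃ M : ℕ, 0 < M ∧
    ∀ (K : Type) [Field K] [CharZero K] (v : AbsoluteValue K ℝ), GoodAbs v →
      ∀ (a : Fin dj → K) (R : Fin r → Fin d → K), (∀ i, v (a i) ≤ 1) → (∀ i j, v (R i j) ≤ 1) →
        vol v (fun i => T.mul a (R i)) ≤ kap M v := by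
  classical
  choose Mf hMf0 hMf using fun f : Fin r → Fin d3 => UP_le (g1Psi T r f)
  have hprod : 0 < ∏ f, Mf f := Finset.prod_pos fun f _ => hMf0 f
  refine ⟨∏ f, Mf f, hprod, ?_⟩
  intro K _ _ v hv a R ha hR
  refine nrm_le (kap_pos hprod v).le fun f => ?_
  have h1 := hMf f K v hv (g1Pt a R) (by
    rintro (i | ⟨i, j⟩)
    · exact ha i
    · exact hR i j)
  rw [evq_g1Psi] at h1
  exact h1.trans (kap_le_of_dvd hprod (Finset.dvd_prod_of_mem _ (Finset.mem_univ f)) v)

end Fermat.Agent.S17.HL
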