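import Fermat.Agent.S17.HL.US

set_option autoImplicit false

/-!
# S17 / HL : local form of (G2), hard direction
-/

namespace Fermat.Agent.S17.HL

variable {dj d dmj dj' d' dmj' d'' : ℕ}

section aux

variable {K : Type} [Field K]

theorem mem_rsp_consRow {r e : ℕ} (s : Fin e → K) (W : Fin r → Fin e → K) (u : Fin e → K) :
    u ∈ rsp (consRow s W) ↔ ∃ α : K, ∃ w ∈ rsp W, u = α • s + w := by
  unfold rsp consRow
  rw [Fin.range_cons, Submodule.mem_span_insert]

theorem linearIndependent_consRow {r e : ℕ} (s : Fin e → K) (W : Fin r → Fin e → K) :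
    LinearIndependent K (consRow s W) ↔ LinearIndependent K W ∧ s ∉ rsp W :=
  linearIndependent_finCons

theorem finrank_rsp {r e : ℕ} {S : Fin r → Fin e → K} (hS : LinearIndependent K S) :
    Module.finrank K (rsp S) = r := by
  rw [rsp, finrank_span_eq_card hS, Fintype.card_fin]

theorem vol_consRow_smul_add [CharZero K] (v : AbsoluteValue K ℝ) {r e : ℕ} (W : Fin r → Fin e → K) (α : K)
    (s w : Fin e → K) (hw : w ∈ rsp W) :
    vol v (consRow (α • s + w) W) = v α * vol v (consRow s W) := by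
  rw [vol_consRow_add v W _ w hw]
  unfold vol
  rw [← nrm_smul]
  congr 1
  funext f
  exact minors_consRow_smul W α s f

/-- `HypUS` over an arbitrary field of characteristic zero (with a good absolute value). -/
theorem HypUS.field [CharZero K] {Tj : Tab dj d dmj} {Tj' : Tab dj' d' dmj'} {T : Tab d d' d''}
    {r ρ r' ρ' r'' : ℕ} (h : HypUS Tj Tj' T r ρ r' ρ' r'') {v : AbsoluteValue K ℝ} (hv : GoodAbs v)
    {S : Fin r → Fin d → K} {S' : Fin r' → Fin d' → K} (hS : LinearIndependent K S)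
    (hS' : LinearIndependent K S') (hρ : Module.finrank K (Tj.prod ⊤ (rsp S)) ≤ ρ)
    (hρ' : Module.finrank K (Tj'.prod ⊤ (rsp S')) ≤ ρ') :
    r'' ≤ Module.finrank K (T.prod (rsp S) (rsp S')) := by
  obtain ⟨I, R, hR, -, -, hRS, -⟩ := exists_reduced v S hS
  obtain ⟨I', R', hR', -, -, hRS', -⟩ := exists_reduced v S' hS'
  obtain ⟨M, hM, hUS⟩ := US_minor Tj Tj' T r ρ r' ρ' r'' h I I'
  obtain ⟨g, f, hgf⟩ := hUS K v hv R R' hR hR' (by rw [hRS]; exact hρ) (by rw [hRS']; exact hρ')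
  have hne : minors (fun a => T.fam₂ R R' (g a)) f ≠ 0 := by
    intro h0
    rw [h0, map_zero, mul_zero] at hgf
    linarith
  have hind : LinearIndependent K (fun a => T.fam₂ R R' (g a)) :=
    (linearIndependent_iff_exists_minors_ne_zero _).2 ⟨f, hne⟩
  have hle : rsp (fun a => T.fam₂ R R' (g a)) ≤ T.prod (rsp S) (rsp S') := by
    rw [← hRS, ← hRS', ← Tab.span_fam₂]
    apply Submodule.span_mono
    rintro _ ⟨a, rfl⟩
    exact ⟨g a, rfl⟩
  calc r'' = Module.finrank K (rsp (fun a => T.fam₂ R R' (g a))) := (finrank_rsp hind).symm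
    _ ≤ _ := Submodule.finrank_mono hle

end aux

/-- the product of two decomposed vectors. -/
theorem Tab.mul_decomp {K : Type} [Field K] (T : Tab d d' d'') {r₀ r₀' r₀'' : ℕ}
    {W : Fin r₀ → Fin d → K} {s : Fin d → K} {W' : Fin r₀' → Fin d' → K} {s' : Fin d' → K}
    {W'' : Fin r₀'' → Fin d'' → K}
    (h1 : ∀ w ∈ rsp W, ∀ u' ∈ rsp (consRow s' W'), T.mul w u' ∈ rsp W'')
    (h2 : ∀ u ∈ rsp (consRow s W), ∀ w' ∈ rsp W', T.mul u w' ∈ rsp W'')
    (α α' : K) {w : Fin d → K} (hw : w ∈ rsp W) {w' : Fin d' → K} (hw' : w' ∈ rsp W') :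
    ∃ z ∈ rsp W'', T.mul (α • s + w) (α' • s' + w') = (α * α') • T.mul s s' + z := by
  refine ⟨T.mul (α • s) w' + T.mul w (α' • s' + w'), ?_, ?_⟩
  · refine add_mem (h2 _ ?_ _ hw') (h1 _ hw _ ?_)
    · exact (mem_rsp_consRow _ _ _).2 ⟨α, 0, zero_mem _, by rw [add_zero]⟩
    · exact (mem_rsp_consRow _ _ _).2 ⟨α', w', hw', rfl⟩
  · rw [T.mul_add_left, T.mul_add_right (α • s), T.mul_smul_left, T.mul_smul_right, smul_smul,
      add_assoc]

theorem G2_local_ge (Tj : Tab dj d dmj) (Tj' : Tab dj' d' dmj') (T : Tab d d' d'')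
    (r₀ ρ r₀' ρ' r₀'' : ℕ) (h : HypUS Tj Tj' T (r₀ + 1) ρ (r₀' + 1) ρ' (r₀'' + 1)) :
    ∃ M : ℕ, 0 < M ∧
    ∀ (K : Type) [Field K] [CharZero K] (v : AbsoluteValue K ℝ), GoodAbs v →
      ∀ (W : Fin r₀ → Fin d → K) (s : Fin d → K) (W' : Fin r₀' → Fin d' → K) (s' : Fin d' → K)
        (W'' : Fin r₀'' → Fin d'' → K),
        LinearIndependent K (consRow s W) → LinearIndependent K (consRow s' W') →
        LinearIndependent K (consRow (T.mul s s') W'') →
        Module.finrank K (Tj.prod ⊤ (rsp (consRow s W))) ≤ ρ →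
        Module.finrank K (Tj'.prod ⊤ (rsp (consRow s' W'))) ≤ ρ' →
        (∀ w ∈ rsp W, ∀ u' ∈ rsp (consRow s' W'), T.mul w u' ∈ rsp W'') →
        (∀ u ∈ rsp (consRow s W), ∀ w' ∈ rsp W', T.mul u w' ∈ rsp W'') →
        vol v W'' * (vol v (consRow s W) * vol v (consRow s' W')) ≤
          kap M v * (vol v (consRow (T.mul s s') W'') * (vol v W * vol v W')) := by
  obtain ⟨M, hM, hUS⟩ := US Tj Tj' T (r₀ + 1) ρ (r₀' + 1) ρ' (r₀'' + 1) h
  refine ⟨(r₀'' + 1) * ((r₀ + 1) * ((r₀' + 1) * M)), by positivity, ?_⟩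
  intro K _ _ v hv W s W' s' W'' hS hS' hS'' hρ hρ' h1 h2
  obtain ⟨hW'', hss⟩ := (linearIndependent_consRow _ _).1 hS''
  -- step 1
  obtain ⟨w'', hw'', hdist⟩ := exists_vol_mul_nrm_sub_le v W'' hW'' (T.mul s s')
  set t := T.mul s s' - w'' with ht
  -- step 2
  have hle : T.prod (rsp (consRow s W)) (rsp (consRow s' W')) ≤ rsp (consRow (T.mul s s') W'') := by
    apply Tab.prod_le
    intro u hu u' hu'
    obtain ⟨α, w, hw, rfl⟩ := (mem_rsp_consRow _ _ _).1 hu
    obtain ⟨α', w', hw', rfl⟩ := (mem_rsp_consRow _ _ _).1 hu'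
    obtain ⟨z, hz, e⟩ := T.mul_decomp h1 h2 α α' hw hw'
    rw [e]
    exact (mem_rsp_consRow _ _ _).2 ⟨_, z, hz, rfl⟩
  -- step 3
  have hge := h.field hv hS hS' hρ hρ'
  have heq : T.prod (rsp (consRow s W)) (rsp (consRow s' W')) = rsp (consRow (T.mul s s') W'') :=
    Submodule.eq_of_le_of_finrank_le hle (by rw [finrank_rsp hS'']; exact hge)
  have htmem : t ∈ T.prod (rsp (consRow s W)) (rsp (consRow s' W')) := by
    rw [heq, ht]
    exact (mem_rsp_consRow _ _ _).2 ⟨1, -w'', neg_mem hw'', by rw [one_smul, sub_eq_add_neg]⟩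
  -- step 4
  obtain ⟨a, a', ha, ha', hta, hbound⟩ := hUS K v hv _ _ hS hS' hρ hρ'
    (by rw [heq, finrank_rsp hS'']) t htmem
  choose α w hw hαw using fun l => (mem_rsp_consRow _ _ _).1 (ha l)
  choose α' w' hw' hαw' using fun l => (mem_rsp_consRow _ _ _).1 (ha' l)
  choose z hz hzz using fun l => T.mul_decomp h1 h2 (α l) (α' l) (hw l) (hw' l)
  have hsum : ∑ l, α l * α' l = 1 := by
    have e1 : t = (∑ l, α l * α' l) • T.mul s s' + ∑ l, z l := by
      rw [hta, Finset.sum_smul, ← Finset.sum_add_distrib]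
      refine Finset.sum_congr rfl fun l _ => ?_
      rw [hαw l, hαw' l, hzz l]
    by_contra hne
    apply hss
    have e2 : (∑ l, α l * α' l - 1) • T.mul s s' = -w'' - ∑ l, z l := by
      rw [sub_smul, one_smul]
      have : (∑ l, α l * α' l) • T.mul s s' = t - ∑ l, z l := by rw [e1]; abel
      rw [this, ht]
      abel
    have e3 : (∑ l, α l * α' l - 1) • T.mul s s' ∈ rsp W'' := by
      rw [e2]
      exact sub_mem (neg_mem hw'') (Submodule.sum_mem _ fun l _ => hz l)
    exact (Submodule.smul_mem_iff _ (sub_ne_zero.2 hne)).1 e3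
  obtain ⟨l, -, hl⟩ := exists_le_abv_of_sum hv Finset.univ (fun l => α l * α' l)
    (M := r₀'' + 1) (Nat.succ_pos _) (by simp) (by rw [hsum]; exact one_ne_zero)
  rw [hsum, map_one, map_mul] at hl
  -- step 5
  have hA : v (α l) * vol v (consRow s W) ≤ kap (r₀ + 1) v * (nrm v (a l) * vol v W) := by
    rw [← vol_consRow_smul_add v W (α l) s (w l) (hw l), ← hαw l]
    exact vol_consRow_le hv W (a l)
  have hA' : v (α' l) * vol v (consRow s' W') ≤ kap (r₀' + 1) v * (nrm v (a' l) * vol v W') := by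
    rw [← vol_consRow_smul_add v W' (α' l) s' (w' l) (hw' l), ← hαw' l]
    exact vol_consRow_le hv W' (a' l)
  have hb := hbound l
  rw [kap_mul, kap_mul, kap_mul]
  set k0 := kap (r₀'' + 1) v
  set k1 := kap (r₀ + 1) v
  set k2 := kap (r₀' + 1) v
  set k3 := kap M v
  have hk0 : 0 < k0 := kap_pos (Nat.succ_pos _) v
  have hk1 : 0 < k1 := kap_pos (Nat.succ_pos _) v
  have hk2 : 0 < k2 := kap_pos (Nat.succ_pos _) v
  have hk3 : 0 < k3 := kap_pos hM v
  have p1 := vol_nonneg v W''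
  have p2 := vol_nonneg v (consRow s W)
  have p3 := vol_nonneg v (consRow s' W')
  have p4 := vol_nonneg v W
  have p5 := vol_nonneg v W'
  have p6 := nrm_nonneg v (a l)
  have p7 := nrm_nonneg v (a' l)
  have p8 := nrm_nonneg v t
  have q1 := v.nonneg (α l)
  have q2 := v.nonneg (α' l)
  calc vol v W'' * (vol v (consRow s W) * vol v (consRow s' W'))
      = vol v W'' * (1 * (vol v (consRow s W) * vol v (consRow s' W'))) := by ring
    _ ≤ vol v W'' * ((k0 * (v (α l) * v (α' l))) * (vol v (consRow s W) * vol v (consRow s' W'))) := by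
        gcongr
    _ = vol v W'' * k0 * ((v (α l) * vol v (consRow s W)) * (v (α' l) * vol v (consRow s' W'))) := by
        ring
    _ ≤ vol v W'' * k0 * ((k1 * (nrm v (a l) * vol v W)) * (k2 * (nrm v (a' l) * vol v W'))) := by
        gcongr
    _ = vol v W'' * k0 * k1 * k2 * (vol v W * vol v W') * (nrm v (a l) * nrm v (a' l)) := by ring
    _ ≤ vol v W'' * k0 * k1 * k2 * (vol v W * vol v W') * (k3 * nrm v t) := by
        gcongr
    _ = k0 * k1 * k2 * k3 * (vol v W * vol v W') * (vol v W'' * nrm v t) := by ring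
    _ ≤ k0 * k1 * k2 * k3 * (vol v W * vol v W') * vol v (consRow (T.mul s s') W'') := by
        gcongr
    _ = _ := by ring

end Fermat.Agent.S17.HL
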