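import Fermat.Agent.S17.HL.Tab
import Fermat.Agent.S17.HL.Laplace

set_option autoImplicit false

/-!
# S17 / HL : local form of (G2):  `dist (s s', W'') ~ dist (s, W) dist (s', W')`
where `dist (t, W) = vol (t :: W) / vol W`.
-/

namespace Fermat.Agent.S17.HL

variable {dj d dmj dj' d' dmj' d'' : ℕ}

theorem g2le_mem_consRow {K : Type} [Field K] {r e : ℕ} (t : Fin e → K) (S : Fin r → Fin e → K) :
    t ∈ rsp (consRow t S) :=
  Submodule.subset_span ⟨0, rfl⟩

theorem g2le_rsp_le_consRow {K : Type} [Field K] {r e : ℕ} (t : Fin e → K) (S : Fin r → Fin e → K) :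
    rsp S ≤ rsp (consRow t S) := by
  apply Submodule.span_mono
  rintro _ ⟨i, rfl⟩
  exact ⟨i.succ, rfl⟩

/-- **easy direction** (no geometry).  Choose `w ∈ rsp W`, `w' ∈ rsp W'` with `vol W * |s - w| ≤ vol (s :: W)` etc.
(`exists_vol_mul_nrm_sub_le`).  `(s - w)(s' - w') - s s' ∈ rsp W''`, so
`vol (s s' :: W'') = vol ((s-w)(s'-w') :: W'') ≤ kap * |(s-w)(s'-w')| * vol W''` (`vol_consRow_le`), and
`|(s-w)(s'-w')| ≤ kap |s-w| |s'-w'|`. -/
theorem G2_local_le (T : Tab d d' d'') (r₀ r₀' r₀'' : ℕ) : ∃ M : ℕ, 0 < M ∧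
    ∀ (K : Type) [Field K] [CharZero K] (v : AbsoluteValue K ℝ), GoodAbs v →
      ∀ (W : Fin r₀ → Fin d → K) (s : Fin d → K) (W' : Fin r₀' → Fin d' → K) (s' : Fin d' → K)
        (W'' : Fin r₀'' → Fin d'' → K),
        LinearIndependent K W → LinearIndependent K W' →
        (∀ w ∈ rsp W, ∀ u' ∈ rsp (consRow s' W'), T.mul w u' ∈ rsp W'') →
        (∀ u ∈ rsp (consRow s W), ∀ w' ∈ rsp W', T.mul u w' ∈ rsp W'') →
        vol v (consRow (T.mul s s') W'') * (vol v W * vol v W') ≤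
          kap M v * (vol v W'' * (vol v (consRow s W) * vol v (consRow s' W'))) := by
  obtain ⟨M1, hM1, hmul⟩ := T.exists_nrm_mul_le
  refine ⟨(r₀'' + 1) * M1, Nat.mul_pos (Nat.succ_pos _) hM1, ?_⟩
  intro K _ _ v hv W s W' s' W'' hW hW' h1 h2
  obtain ⟨w, hw, hwle⟩ := exists_vol_mul_nrm_sub_le v W hW s
  obtain ⟨w', hw', hwle'⟩ := exists_vol_mul_nrm_sub_le v W' hW' s'
  have hz : -(T.mul s w') - T.mul w (s' - w') ∈ rsp W'' := by
    apply Submodule.sub_mem
    · exact Submodule.neg_mem _ (h2 s (g2le_mem_consRow s W) w' hw')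
    · exact h1 w hw _ (Submodule.sub_mem _ (g2le_mem_consRow s' W') (g2le_rsp_le_consRow s' W' hw'))
  have heq : T.mul (s - w) (s' - w') = T.mul s s' + (-(T.mul s w') - T.mul w (s' - w')) := by
    rw [Tab.mul_sub_left, Tab.mul_sub_right T s]
    abel
  have hvol : vol v (consRow (T.mul s s') W'') = vol v (consRow (T.mul (s - w) (s' - w')) W'') := by
    rw [heq, vol_consRow_add v W'' _ _ hz]
  have hA := vol_consRow_le hv W'' (T.mul (s - w) (s' - w'))
  have hB := hmul K v hv (s - w) (s' - w')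
  have k1 : 0 < kap (r₀'' + 1) v := kap_pos (Nat.succ_pos _) v
  have k2 : 0 < kap M1 v := kap_pos hM1 v
  have n1 := nrm_nonneg v (s - w)
  have n2 := nrm_nonneg v (s' - w')
  have v0 := vol_nonneg v W
  have v0' := vol_nonneg v W'
  have v0'' := vol_nonneg v W''
  rw [hvol, kap_mul]
  calc vol v (consRow (T.mul (s - w) (s' - w')) W'') * (vol v W * vol v W')
      ≤ (kap (r₀'' + 1) v * ((kap M1 v * (nrm v (s - w) * nrm v (s' - w'))) * vol v W''))
          * (vol v W * vol v W') := by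
        apply mul_le_mul_of_nonneg_right _ (mul_nonneg v0 v0')
        apply hA.trans
        exact mul_le_mul_of_nonneg_left (mul_le_mul_of_nonneg_right hB v0'') k1.le
    _ = kap (r₀'' + 1) v * kap M1 v * (vol v W'' *
          ((vol v W * nrm v (s - w)) * (vol v W' * nrm v (s' - w')))) := by ring
    _ ≤ kap (r₀'' + 1) v * kap M1 v * (vol v W'' *
          (vol v (consRow s W) * vol v (consRow s' W'))) := by
        apply mul_le_mul_of_nonneg_left _ (mul_pos k1 k2).le
        apply mul_le_mul_of_nonneg_left _ v0''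
        exact mul_le_mul hwle hwle' (mul_nonneg v0' n2) (vol_nonneg v _)

end Fermat.Agent.S17.HL
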