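import Fermat.Agent.S17.HL.Kap

set_option autoImplicit false

/-!
# S17 / HL : from local inequalities to global ones

`IsLoc A a` : `A` is a positive function of the absolute values of the number field `K`, equal to `1` at almost all
nonarchimedean ones, and `a` is the logarithm of the product of all its values (archimedean ones with
multiplicity).
-/

namespace Fermat.Agent.S17.HL

open Height Height.AdmissibleAbsValues

variable {K : Type} [Field K] [NumberField K]

/-- the absolute values occurring in the height machinery -/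
def IsPlace (v : AbsoluteValue K ℝ) : Prop :=
  v ∈ archAbsVal (K := K) ∨ v ∈ nonarchAbsVal (K := K)

/-- places of a number field are good. (`NumberField.mem_multisetInfinitePlace`; an infinite place is
`x ↦ ‖φ x‖` for an embedding `φ`.) -/
theorem IsPlace.good {v : AbsoluteValue K ℝ} (hv : IsPlace v) : GoodAbs v := by
  rcases hv with hv | hv
  · right
    intro n
    obtain ⟨w, rfl⟩ := (NumberField.isInfinitePlace_iff v).mp (NumberField.mem_multisetInfinitePlace.mp hv)
    have := w.norm_embedding_eq (n : K)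
    rw [map_natCast, Complex.norm_natCast] at this
    exact this.symm
  · exact Or.inl (isNonarchimedean v hv)

theorem glob_arch_natCast {v : AbsoluteValue K ℝ} (hv : v ∈ archAbsVal (K := K)) (n : ℕ) :
    v (n : K) = n := by
  obtain ⟨w, rfl⟩ := (NumberField.isInfinitePlace_iff v).mp (NumberField.mem_multisetInfinitePlace.mp hv)
  have := w.norm_embedding_eq (n : K)
  rw [map_natCast, Complex.norm_natCast] at this
  exact this.symm

theorem glob_arch_not_nonarch {v : AbsoluteValue K ℝ} (hv : v ∈ archAbsVal (K := K)) :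
    ¬ IsNonarchimedean v := by
  intro h
  have h1 := kap_natCast_le_one h 2
  rw [glob_arch_natCast hv] at h1
  norm_num at h1

structure IsLoc (A : AbsoluteValue K ℝ → ℝ) (a : ℝ) : Prop where
  pos : ∀ v, IsPlace v → 0 < A v
  fin : (fun v : nonarchAbsVal (K := K) => A v.1).HasFiniteMulSupport
  eq : Real.log (((archAbsVal (K := K)).map A).prod * ∏ᶠ v : nonarchAbsVal (K := K), A v.1) = a

/-- the sup norm of a non zero vector; its global sum is the logarithmic height (`Height.mulHeight_eq`). -/
theorem isLoc_nrm {ι : Type} [Finite ι] {x : ι → K} (hx : x ≠ 0) :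
    IsLoc (fun v => nrm v x) (logHeight x) := by
  refine ⟨fun v _ => (nrm_pos_iff v x).mpr hx, ?_, ?_⟩
  · have : Nonempty {j // x j ≠ 0} := nonempty_subtype.mpr <| Function.ne_iff.mp hx
    suffices (fun v : nonarchAbsVal (K := K) =>
        ⨆ i : {j // x j ≠ 0}, v.val (x i)).HasFiniteMulSupport by
      convert this with v
      obtain ⟨i, hi⟩ : ∃ j, x j ≠ 0 := Function.ne_iff.mp hx
      have : Nonempty ι := .intro i
      refine le_antisymm (ciSup_le fun j => ?_)
        (ciSup_le fun ⟨j, hj⟩ => Finite.le_ciSup_of_le j le_rfl)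
      rcases eq_or_ne (x j) 0 with h | h
      · rw [h, v.val.map_zero]
        exact Real.iSup_nonneg' ⟨⟨i, hi⟩, v.val.nonneg ..⟩
      · exact Finite.le_ciSup_of_le ⟨j, h⟩ le_rfl
    exact Function.HasFiniteMulSupport.iSup fun i => hasFiniteMulSupport i.2
  · rw [logHeight_eq_log_mulHeight, Height.mulHeight_eq hx]
    rfl

/-- product formula -/
theorem isLoc_apply {c : K} (hc : c ≠ 0) : IsLoc (fun v => v c) 0 := by
  refine ⟨fun v _ => v.pos hc, hasFiniteMulSupport hc, ?_⟩
  rw [product_formula hc, Real.log_one]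

theorem IsLoc.arch_pos {A : AbsoluteValue K ℝ → ℝ} {a : ℝ} (hA : IsLoc A a) :
    0 < ((archAbsVal (K := K)).map A).prod := by
  apply Multiset.prod_pos
  intro x hx
  obtain ⟨v, hv, rfl⟩ := Multiset.mem_map.mp hx
  exact hA.pos v (Or.inl hv)

theorem IsLoc.nonarch_pos {A : AbsoluteValue K ℝ → ℝ} {a : ℝ} (hA : IsLoc A a) :
    0 < ∏ᶠ v : nonarchAbsVal (K := K), A v.1 := by
  rw [finprod_eq_prod _ hA.fin]
  exact Finset.prod_pos fun v _ => hA.pos v.1 (Or.inr v.2)

theorem IsLoc.mul {A B : AbsoluteValue K ℝ → ℝ} {a b : ℝ} (hA : IsLoc A a) (hB : IsLoc B b) :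
    IsLoc (fun v => A v * B v) (a + b) := by
  refine ⟨fun v hv => mul_pos (hA.pos v hv) (hB.pos v hv), hA.fin.mul hB.fin, ?_⟩
  rw [Multiset.prod_map_mul, finprod_mul_distrib hA.fin hB.fin, ← hA.eq, ← hB.eq,
    ← Real.log_mul (mul_pos hA.arch_pos hA.nonarch_pos).ne' (mul_pos hB.arch_pos hB.nonarch_pos).ne']
  congr 1
  ring

theorem IsLoc.pow {A : AbsoluteValue K ℝ → ℝ} {a : ℝ} (hA : IsLoc A a) (n : ℕ) :
    IsLoc (fun v => A v ^ n) (n * a) := by
  induction n with
  | zero =>
    refine ⟨fun v _ => by simp, ?_, ?_⟩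
    · simp only [pow_zero]
      exact Function.hasFiniteMulSupport_fun_one
    · simp
  | succ n ih =>
    have := ih.mul hA
    have h2 : ((n + 1 : ℕ) : ℝ) * a = n * a + a := by push_cast; ring
    rw [h2]
    simpa only [pow_succ] using this

theorem IsLoc.le {A B : AbsoluteValue K ℝ → ℝ} {a b : ℝ} (hA : IsLoc A a) (hB : IsLoc B b)
    (h : ∀ v, IsPlace v → A v ≤ B v) : a ≤ b := by
  rw [← hA.eq, ← hB.eq]
  apply Real.log_le_log (mul_pos hA.arch_pos hA.nonarch_pos)
  apply mul_le_mul _ _ hA.nonarch_pos.le hB.arch_pos.le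
  · exact Multiset.prod_map_le_prod_map₀ _ _ (fun v hv => (hA.pos v (Or.inl hv)).le)
      (fun v hv => h v (Or.inl hv))
  · exact finprod_le_finprod hA.fin (fun v => (hA.pos v.1 (Or.inr v.2)).le) hB.fin
      (fun v => h v.1 (Or.inr v.2))

/-- `∏_v kap M v = M ^ w * ∏_{v nonarch} (v M)⁻¹ = M ^ w * ∏_{v arch} v M = M ^ (2 w)`, `w = [K : ℚ]`
(`Height.totalWeight_eq_finrank`, product formula). -/
theorem isLoc_kap {M : ℕ} (hM : 0 < M) :
    IsLoc (K := K) (fun v => kap M v) (2 * Module.finrank ℚ K * Real.log M) := by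
  have hMK : (M : K) ≠ 0 := Nat.cast_ne_zero.mpr hM.ne'
  have hMR : (0 : ℝ) < M := Nat.cast_pos.mpr hM
  have hna : ∀ v : nonarchAbsVal (K := K), kap M v.1 = (v.1 (M : K))⁻¹ := by
    intro v
    unfold kap
    rw [if_pos (isNonarchimedean v.1 v.2)]
  have harch : ((archAbsVal (K := K)).map fun v => kap M v) =
      (archAbsVal (K := K)).map fun _ => (M : ℝ) := by
    apply Multiset.map_congr rfl
    intro v hv
    unfold kap
    rw [if_neg (glob_arch_not_nonarch hv)]
  have harch2 : ((archAbsVal (K := K)).map fun v => v (M : K)) =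
      (archAbsVal (K := K)).map fun _ => (M : ℝ) := by
    apply Multiset.map_congr rfl
    intro v hv
    exact glob_arch_natCast hv M
  have hcard : Multiset.card (archAbsVal (K := K)) = Module.finrank ℚ K :=
    NumberField.totalWeight_eq_finrank K
  have hprod : ((archAbsVal (K := K)).map fun _ => (M : ℝ)).prod = (M : ℝ) ^ Module.finrank ℚ K := by
    rw [Multiset.map_const', Multiset.prod_replicate, hcard]
  refine ⟨fun v _ => kap_pos hM v, ?_, ?_⟩
  · simp only [hna]
    exact (hasFiniteMulSupport hMK).inv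
  · have hpf := product_formula (K := K) hMK
    rw [harch2, hprod] at hpf
    simp only [hna]
    rw [harch, hprod, finprod_inv_distrib]
    have h3 : (∏ᶠ v : nonarchAbsVal (K := K), v.1 (M : K))⁻¹ = (M : ℝ) ^ Module.finrank ℚ K := by
      exact (eq_inv_of_mul_eq_one_left hpf).symm
    rw [h3, ← pow_add, Real.log_pow]
    push_cast
    ring

/-- the form in which everything is used. -/
theorem IsLoc.le_add {A B : AbsoluteValue K ℝ → ℝ} {a b : ℝ} (hA : IsLoc A a) (hB : IsLoc B b)
    {M : ℕ} (hM : 0 < M) (h : ∀ v, IsPlace v → A v ≤ kap M v * B v) :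
    a ≤ b + 2 * Real.log M * Module.finrank ℚ K := by
  have := IsLoc.le hA ((isLoc_kap hM).mul hB) h
  linarith

end Fermat.Agent.S17.HL
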