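import Fermat.Agent.S17.HL.Glob
import Fermat.Agent.S17.HL.G1Local
import Fermat.Agent.S17.HL.G2Le
import Fermat.Agent.S17.HL.G2Ge

set_option autoImplicit false

/-!
# S17 / HL : global forms of (G1) and (G2) for matrices over a number field
-/

namespace Fermat.Agent.S17.HL

open Height

variable {dj d dmj dj' d' dmj' d'' : ℕ}

theorem isLoc_vol {K : Type} [Field K] [NumberField K] {r e : ℕ} (S : Fin r → Fin e → K)
    (hS : LinearIndependent K S) : IsLoc (fun v => vol v S) (Hmat S) := by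
  obtain ⟨f, hf⟩ := exists_minors_ne_zero S hS
  exact isLoc_nrm (x := minors S) (fun h => hf (by rw [h]; rfl))

/-- **(G1), global form.**  `G1_local` + `IsLoc.le_add` (both directions), `C = 2 log M`.
(`a * S` is independent: its `vol` is positive at any place by the local lower bound, or by `NoZeroDiv` after
embedding `K` in `Qb`.) -/
theorem G1_global (T : Tab dj d dmj) (hT : T.NoZeroDiv) (r : ℕ) : ∃ C : ℝ,
    ∀ (K : Type) [Field K] [NumberField K] (a : Fin dj → K) (S : Fin r → Fin d → K),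
      a ≠ 0 → LinearIndependent K S →
      |Hmat (fun i => T.mul a (S i)) - r * logHeight a - Hmat S| ≤ C * Module.finrank ℚ K := by
  obtain ⟨M, hM, hloc⟩ := G1_local T hT r
  refine ⟨2 * Real.log M, ?_⟩
  intro K _ _ a S ha hS
  have hLI : LinearIndependent K (fun i => T.mul a (S i)) := by
    by_contra hcon
    obtain ⟨v, hv⟩ := Multiset.card_pos_iff_exists_mem.mp (NumberField.totalWeight_pos K)
    have hp : IsPlace v := Or.inl hv
    have h2 := (hloc K v hp.good a S).2
    rw [g1l_vol_eq_zero v _ hcon, mul_zero] at h2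
    have h3 : 0 < nrm v a ^ r * vol v S :=
      mul_pos (pow_pos ((nrm_pos_iff v a).mpr ha) r) (vol_pos v S hS)
    linarith
  have hA := isLoc_vol _ hLI
  have hB := ((isLoc_nrm ha).pow r).mul (isLoc_vol S hS)
  have h1 := hA.le_add hB hM (fun v hv => (hloc K v hv.good a S).1)
  have h2 := hB.le_add hA hM (fun v hv => (hloc K v hv.good a S).2)
  rw [abs_le]
  constructor <;> linarith

/-- **(G2), global form.**  `G2_local_le`, `G2_local_ge` + `IsLoc.le_add`. -/
theorem G2_global (Tj : Tab dj d dmj) (Tj' : Tab dj' d' dmj') (T : Tab d d' d'')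
    (r₀ ρ r₀' ρ' r₀'' : ℕ) (h : HypUS Tj Tj' T (r₀ + 1) ρ (r₀' + 1) ρ' (r₀'' + 1)) :
    ∃ C : ℝ,
    ∀ (K : Type) [Field K] [NumberField K]
      (W : Fin r₀ → Fin d → K) (s : Fin d → K) (W' : Fin r₀' → Fin d' → K) (s' : Fin d' → K)
        (W'' : Fin r₀'' → Fin d'' → K),
        LinearIndependent K (consRow s W) → LinearIndependent K (consRow s' W') →
        LinearIndependent K (consRow (T.mul s s') W'') →
        Module.finrank K (Tj.prod ⊤ (rsp (consRow s W))) ≤ ρ →
        Module.finrank K (Tj'.prod ⊤ (rsp (consRow s' W'))) ≤ ρ' →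
        (∀ w ∈ rsp W, ∀ u' ∈ rsp (consRow s' W'), T.mul w u' ∈ rsp W'') →
        (∀ u ∈ rsp (consRow s W), ∀ w' ∈ rsp W', T.mul u w' ∈ rsp W'') →
        |(Hmat W'' - Hmat (consRow (T.mul s s') W'')) - (Hmat W - Hmat (consRow s W))
            - (Hmat W' - Hmat (consRow s' W'))| ≤ C * Module.finrank ℚ K := by
  obtain ⟨M1, hM1, hle⟩ := G2_local_le T r₀ r₀' r₀''
  obtain ⟨M2, hM2, hge⟩ := G2_local_ge Tj Tj' T r₀ ρ r₀' ρ' r₀'' h
  refine ⟨2 * Real.log M1 + 2 * Real.log M2, ?_⟩
  intro K _ _ W s W' s' W'' hS hS' hS'' hρ hρ' h1 h2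
  have hW := ((linearIndependent_consRow _ _).1 hS).1
  have hW' := ((linearIndependent_consRow _ _).1 hS').1
  have hW'' := ((linearIndependent_consRow _ _).1 hS'').1
  have hA := (isLoc_vol _ hS'').mul ((isLoc_vol _ hW).mul (isLoc_vol _ hW'))
  have hB := (isLoc_vol _ hW'').mul ((isLoc_vol _ hS).mul (isLoc_vol _ hS'))
  have e1 := hA.le_add hB hM1 (fun v hv => hle K v hv.good W s W' s' W'' hW hW' h1 h2)
  have e2 := hB.le_add hA hM2
    (fun v hv => hge K v hv.good W s W' s' W'' hS hS' hS'' hρ hρ' h1 h2)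
  have l1 : 0 ≤ Real.log M1 := Real.log_natCast_nonneg M1
  have l2 : 0 ≤ Real.log M2 := Real.log_natCast_nonneg M2
  have hn : (0 : ℝ) ≤ Module.finrank ℚ K := Nat.cast_nonneg _
  have p1 := mul_nonneg l1 hn
  have p2 := mul_nonneg l2 hn
  rw [abs_le]
  constructor <;> nlinarith

end Fermat.Agent.S17.HL
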