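import Fermat.Agent.S17.HL.Defs

set_option autoImplicit false
set_option linter.unusedSectionVars false
set_option linter.unusedVariables false

/-!
# S17 / HL : elementary properties of the local constants `kap M v` and of `nrm`
-/

namespace Fermat.Agent.S17.HL

variable {K : Type} [Field K] [CharZero K]

theorem kap_natCast_le_one {v : AbsoluteValue K ℝ} (hv : IsNonarchimedean v) (n : ℕ) :
    v (n : K) ≤ 1 := by
  exact IsNonarchimedean.apply_natCast_le_one hv

/-- nonarchimedean: `0 < v M ≤ 1`. -/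
theorem one_le_kap {M : ℕ} (hM : 0 < M) (v : AbsoluteValue K ℝ) : 1 ≤ kap M v := by
  unfold kap
  split_ifs with h
  · have h1 : v (M : K) ≤ 1 := kap_natCast_le_one h M
    have h0 : 0 < v (M : K) := v.pos (by exact_mod_cast hM.ne')
    exact (one_le_inv₀ h0).mpr h1
  · exact_mod_cast hM

theorem kap_pos {M : ℕ} (hM : 0 < M) (v : AbsoluteValue K ℝ) : 0 < kap M v :=
  lt_of_lt_of_le one_pos (one_le_kap hM v)

theorem kap_mul (M M' : ℕ) (v : AbsoluteValue K ℝ) : kap (M * M') v = kap M v * kap M' v := by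
  unfold kap
  split_ifs with h
  · rw [Nat.cast_mul, map_mul, mul_inv]
  · push_cast; ring

theorem kap_pow (M n : ℕ) (v : AbsoluteValue K ℝ) : kap (M ^ n) v = kap M v ^ n := by
  unfold kap
  split_ifs with h
  · rw [Nat.cast_pow, map_pow, inv_pow]
  · push_cast; ring

theorem kap_le_of_dvd {M M' : ℕ} (hM' : 0 < M') (h : M ∣ M') (v : AbsoluteValue K ℝ) :
    kap M v ≤ kap M' v := by
  obtain ⟨c, rfl⟩ := h
  have hM : 0 < M := Nat.pos_of_mul_pos_right hM' |> fun _ => Nat.pos_of_ne_zero (by rintro rfl; simp at hM')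
  have hc : 0 < c := Nat.pos_of_ne_zero (by rintro rfl; simp at hM')
  rw [kap_mul]
  exact le_mul_of_one_le_right (kap_pos hM v).le (one_le_kap hc v)

/-- sums of at most `M` terms. -/
theorem abv_sum_le_kap {v : AbsoluteValue K ℝ} (hv : GoodAbs v) {ι : Type} (s : Finset ι)
    (x : ι → K) {B : ℝ} (hB0 : 0 ≤ B) (hB : ∀ i ∈ s, v (x i) ≤ B) {M : ℕ} (hM0 : 0 < M)
    (hM : s.card ≤ M) : v (∑ i ∈ s, x i) ≤ kap M v * B := by
  by_cases hna : IsNonarchimedean v
  · have h1 : v (∑ i ∈ s, x i) ≤ B := by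
      rcases s.eq_empty_or_nonempty with rfl | hs
      · simpa using hB0
      · obtain ⟨i, hi, hle⟩ := IsNonarchimedean.finset_image_add_of_nonempty hna x hs
        exact hle.trans (hB i hi)
    exact h1.trans (le_mul_of_one_le_left hB0 (one_le_kap hM0 v))
  · have hk : kap M v = M := by unfold kap; rw [if_neg hna]
    rw [hk]
    calc v (∑ i ∈ s, x i) ≤ ∑ i ∈ s, v (x i) := v.sum_le s x
      _ ≤ ∑ _i ∈ s, B := Finset.sum_le_sum hB
      _ = s.card * B := by rw [Finset.sum_const, nsmul_eq_mul]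
      _ ≤ M * B := by
        apply mul_le_mul_of_nonneg_right _ hB0
        exact_mod_cast hM

/-- if a sum of at most `M` terms has absolute value `≥ A`, one of the terms is `≥ A / kap M v`. -/
theorem exists_le_abv_of_sum {v : AbsoluteValue K ℝ} (hv : GoodAbs v) {ι : Type} (s : Finset ι)
    (x : ι → K) {M : ℕ} (hM0 : 0 < M) (hM : s.card ≤ M) (hne : ∑ i ∈ s, x i ≠ 0) :
    ∃ i ∈ s, v (∑ i ∈ s, x i) ≤ kap M v * v (x i) := by
  have hs : s.Nonempty := by
    rcases s.eq_empty_or_nonempty with rfl | hs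
    · simp at hne
    · exact hs
  obtain ⟨i, hi, hmax⟩ := s.exists_max_image (fun i => v (x i)) hs
  exact ⟨i, hi, abv_sum_le_kap hv s x (v.nonneg _) hmax hM0 hM⟩

/-- a rational number is bounded by a local constant. -/
theorem exists_ratCast_le_kap (q : ℚ) : ∃ M : ℕ, 0 < M ∧
    ∀ (L : Type) [Field L] [CharZero L] (v : AbsoluteValue L ℝ), GoodAbs v →
      v ((q : ℚ) : L) ≤ kap M v := by
  refine ⟨(q.num.natAbs + 1) * q.den, Nat.mul_pos (Nat.succ_pos _) q.den_pos, ?_⟩
  intro L _ _ v hv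
  have hden : (q.den : L) ≠ 0 := by exact_mod_cast q.den_ne_zero
  have hq : ((q : ℚ) : L) = (q.num : L) / (q.den : L) := by
    exact Rat.cast_def q
  have hnum : v (q.num : L) = v ((q.num.natAbs : ℕ) : L) := by
    rcases Int.natAbs_eq q.num with h | h
    · conv_lhs => rw [h]
      simp
    · conv_lhs => rw [h]
      simp
  rw [hq, map_div₀, hnum]
  have hdpos : 0 < v (q.den : L) := v.pos hden
  by_cases hna : IsNonarchimedean v
  · have hk : kap ((q.num.natAbs + 1) * q.den) v = (v (((q.num.natAbs + 1) * q.den : ℕ) : L))⁻¹ := by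
      unfold kap; rw [if_pos hna]
    rw [hk, Nat.cast_mul, map_mul, mul_inv, div_eq_mul_inv]
    have h1 : v ((q.num.natAbs : ℕ) : L) ≤ 1 := kap_natCast_le_one hna _
    have h2 : v ((q.num.natAbs + 1 : ℕ) : L) ≤ 1 := kap_natCast_le_one hna _
    have h3 : 0 < v ((q.num.natAbs + 1 : ℕ) : L) := v.pos (Nat.cast_ne_zero.mpr (Nat.succ_ne_zero _))
    have h4 : 1 ≤ (v ((q.num.natAbs + 1 : ℕ) : L))⁻¹ := (one_le_inv₀ h3).mpr h2
    exact mul_le_mul_of_nonneg_right (h1.trans h4) (inv_nonneg.mpr hdpos.le)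
  · have hn : ∀ n : ℕ, v (n : L) = n := hv.resolve_left hna
    have hk : kap ((q.num.natAbs + 1) * q.den) v = (((q.num.natAbs + 1) * q.den : ℕ) : ℝ) := by
      unfold kap; rw [if_neg hna]
    rw [hk, hn, hn]
    have hd1 : (1 : ℝ) ≤ q.den := by exact_mod_cast q.den_pos
    push_cast
    rw [div_le_iff₀ (by linarith)]
    have h0 : (0 : ℝ) ≤ q.num.natAbs := Nat.cast_nonneg _
    have h5 : (1 : ℝ) ≤ (q.den : ℝ) * q.den := by nlinarith
    calc (q.num.natAbs : ℝ) ≤ (q.num.natAbs + 1) * 1 := by linarith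
      _ ≤ (q.num.natAbs + 1) * ((q.den : ℝ) * q.den) := by
          apply mul_le_mul_of_nonneg_left h5; linarith
      _ = (q.num.natAbs + 1) * q.den * q.den := by ring

section nrm

variable {ι : Type} [Finite ι]

theorem nrm_nonneg (v : AbsoluteValue K ℝ) (x : ι → K) : 0 ≤ nrm v x :=
  Real.iSup_nonneg fun i => v.nonneg _

theorem le_nrm (v : AbsoluteValue K ℝ) (x : ι → K) (i : ι) : v (x i) ≤ nrm v x :=
  le_ciSup (f := fun i => v (x i)) (Set.finite_range _).bddAbove i

theorem nrm_le {v : AbsoluteValue K ℝ} {x : ι → K} {B : ℝ} (hB0 : 0 ≤ B)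
    (h : ∀ i, v (x i) ≤ B) : nrm v x ≤ B :=
  Real.iSup_le h hB0

theorem exists_eq_nrm [Nonempty ι] (v : AbsoluteValue K ℝ) (x : ι → K) :
    ∃ i, nrm v x = v (x i) := by
  obtain ⟨i, hi⟩ := exists_eq_ciSup_of_finite (f := fun i => v (x i))
  exact ⟨i, hi.symm⟩

theorem nrm_pos_iff (v : AbsoluteValue K ℝ) (x : ι → K) : 0 < nrm v x ↔ x ≠ 0 := by
  constructor
  · rintro h rfl
    have : nrm v (0 : ι → K) ≤ 0 := nrm_le le_rfl (fun i => by simp)
    linarith
  · intro h
    obtain ⟨i, hi⟩ := Function.ne_iff.mp h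
    exact lt_of_lt_of_le (v.pos hi) (le_nrm v x i)

theorem nrm_smul (v : AbsoluteValue K ℝ) (c : K) (x : ι → K) :
    nrm v (c • x) = v c * nrm v x := by
  unfold nrm
  simp only [Pi.smul_apply, smul_eq_mul, map_mul]
  rw [Real.mul_iSup_of_nonneg (v.nonneg c)]

end nrm

end Fermat.Agent.S17.HL
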