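import Fermat.Agent.S17.HL.Kap

set_option autoImplicit false

/-!
# S17 / HL : minors and linear independence
-/

namespace Fermat.Agent.S17.HL

variable {K : Type} [Field K]

/-- prepend a row -/
def consRow {r d : ℕ} (t : Fin d → K) (S : Fin r → Fin d → K) : Fin (r + 1) → Fin d → K :=
  Fin.cons (α := fun _ => Fin d → K) t S

/-- independent rows: some maximal minor is non zero (row rank = column rank: choose `r` independent
columns). -/
theorem exists_minors_ne_zero {r d : ℕ} (S : Fin r → Fin d → K) (hS : LinearIndependent K S) :
    ∃ f, minors S f ≠ 0 := by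
  classical
  let A : Matrix (Fin r) (Fin d) K := Matrix.of S
  have hrank : A.rank = r := by
    have := LinearIndependent.rank_matrix (M := A) (by exact hS)
    simpa using this
  have hcols : Module.finrank K (Submodule.span K (Set.range A.col)) = r := by
    rw [← Matrix.rank_eq_finrank_span_cols, hrank]
  obtain ⟨c, hc, -, hli⟩ := Submodule.exists_fun_fin_finrank_span_eq K (Set.range A.col)
  choose f hf using hc
  refine ⟨fun k => f (Fin.cast hcols.symm k), ?_⟩
  let B : Matrix (Fin r) (Fin r) K := Matrix.of fun i k => S i (f (Fin.cast hcols.symm k))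
  have hB : LinearIndependent K B.col := by
    have h1 : B.col = c ∘ (Fin.cast hcols.symm) := by
      funext k
      rw [Function.comp_apply, ← hf]
      rfl
    rw [h1]
    exact hli.comp _ (Fin.cast_injective _)
  have hu : IsUnit B := Matrix.linearIndependent_cols_iff_isUnit.mp hB
  have hdet : IsUnit B.det := (Matrix.isUnit_iff_isUnit_det B).mp hu
  exact hdet.ne_zero

/-- dependent rows: all maximal minors vanish. -/
theorem minors_eq_zero_of_not_linearIndependent {r d : ℕ} (S : Fin r → Fin d → K)
    (hS : ¬ LinearIndependent K S) (f : Fin r → Fin d) : minors S f = 0 := by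
  classical
  by_contra hne
  apply hS
  let B : Matrix (Fin r) (Fin r) K := Matrix.of fun i k => S i (f k)
  have hu : IsUnit B := (Matrix.isUnit_iff_isUnit_det B).mpr (isUnit_iff_ne_zero.mpr hne)
  have hrows : LinearIndependent K B.row := Matrix.linearIndependent_rows_iff_isUnit.mpr hu
  -- `B.row i = (S i) ∘ f` is the image of `S i` under a linear map
  let L : (Fin d → K) →ₗ[K] (Fin r → K) := LinearMap.funLeft K K f
  have h1 : B.row = L ∘ S := by
    funext i k
    rfl
  rw [h1] at hrows
  exact LinearIndependent.of_comp L hrows

theorem linearIndependent_iff_exists_minors_ne_zero {r d : ℕ} (S : Fin r → Fin d → K) :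
    LinearIndependent K S ↔ ∃ f, minors S f ≠ 0 :=
  ⟨exists_minors_ne_zero S, fun ⟨f, hf⟩ => by
    by_contra h
    exact hf (minors_eq_zero_of_not_linearIndependent S h f)⟩

/-- change of basis multiplies all minors by the determinant. -/
theorem minors_mulLeft {r d : ℕ} (g : Matrix (Fin r) (Fin r) K) (S : Fin r → Fin d → K)
    (f : Fin r → Fin d) : minors (fun i => ∑ k, g i k • S k) f = g.det * minors S f := by
  unfold minors
  rw [← Matrix.det_mul]
  congr 1
  ext i k
  simp [Matrix.mul_apply, Finset.sum_apply]

/-- minors commute with ring homomorphisms. -/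
theorem minors_map {L : Type} [Field L] (φ : K →+* L) {r d : ℕ} (S : Fin r → Fin d → K)
    (f : Fin r → Fin d) : minors (fun i k => φ (S i k)) f = φ (minors S f) := by
  unfold minors
  rw [RingHom.map_det]
  rfl

theorem linearIndependent_map_iff {L : Type} [Field L] (φ : K →+* L) {r d : ℕ}
    (S : Fin r → Fin d → K) :
    LinearIndependent L (fun i k => φ (S i k)) ↔ LinearIndependent K S := by
  rw [linearIndependent_iff_exists_minors_ne_zero, linearIndependent_iff_exists_minors_ne_zero]
  simp only [minors_map, ne_eq, map_eq_zero]

end Fermat.Agent.S17.HL
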