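import Fermat.Agent.S17.HL.Rank

set_option autoImplicit false

/-!
# S17 / HL : saturated integral bases of a subspace of `ℚ ^ d`
-/

namespace Fermat.Agent.S17.HL

namespace SiegelSat

/-- the cast map `ℤ^d → ℚ^d`. -/
def castL (d : ℕ) : (Fin d → ℤ) →ₗ[ℤ] (Fin d → ℚ) where
  toFun u := fun k => ((u k : ℤ) : ℚ)
  map_add' u w := by funext k; simp
  map_smul' c u := by funext k; simp

theorem castL_apply (d : ℕ) (u : Fin d → ℤ) (k : Fin d) : castL d u k = ((u k : ℤ) : ℚ) := rfl

theorem castL_injective (d : ℕ) : Function.Injective (castL d) := by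
  intro u w h
  funext k
  have := congrFun h k
  simp only [castL_apply] at this
  exact_mod_cast this

/-- the lattice of integral points of `rsp S`. -/
def lat {r d : ℕ} (S : Fin r → Fin d → ℚ) : Submodule ℤ (Fin d → ℤ) :=
  ((rsp S).restrictScalars ℤ).comap (castL d)

theorem mem_lat {r d : ℕ} (S : Fin r → Fin d → ℚ) (u : Fin d → ℤ) :
    u ∈ lat S ↔ castL d u ∈ rsp S := Iff.rfl

variable {r d n : ℕ} (S : Fin r → Fin d → ℚ) (b : Module.Basis (Fin n) ℤ (lat S))

theorem eq_sum (u : Fin d → ℤ) (hu : u ∈ lat S) :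
    u = ∑ j, b.repr ⟨u, hu⟩ j • (b j : Fin d → ℤ) := by
  have h := congrArg (lat S).subtype (b.sum_repr ⟨u, hu⟩)
  rw [map_sum] at h
  simp only [map_smul, Submodule.subtype_apply] at h
  exact h.symm

theorem rsp_eq : rsp (fun i => castL d (b i)) = rsp S := by
  apply le_antisymm
  · refine Submodule.span_le.2 ?_
    rintro _ ⟨i, rfl⟩
    exact (b i).2
  · refine Submodule.span_le.2 ?_
    rintro _ ⟨i, rfl⟩
    obtain ⟨D, hD⟩ := IsLocalization.exist_integer_multiples_of_finite (nonZeroDivisors ℤ) (S i)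
    choose u hu using hD
    have hD0 : ((D : ℤ) : ℚ) ≠ 0 := by
      have := nonZeroDivisors.ne_zero D.2
      exact_mod_cast this
    have e : castL d u = ((D : ℤ) : ℚ) • S i := by
      funext k
      have := hu k
      simp only [castL_apply, Pi.smul_apply, smul_eq_mul]
      rw [← this.trans (by simp [Algebra.smul_def] : ((D : ℤ) • S i k) = ((D : ℤ) : ℚ) * S i k)]
      rfl
    have hmem : u ∈ lat S := by
      rw [mem_lat, e]
      exact Submodule.smul_mem _ _ (Submodule.subset_span ⟨i, rfl⟩)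
    have h1 : castL d u ∈ rsp (fun i => castL d (b i)) := by
      have h2 := congrArg (castL d) (eq_sum S b u hmem)
      rw [map_sum] at h2
      rw [h2]
      refine Submodule.sum_mem _ fun j _ => ?_
      rw [map_smul]
      have hj : castL d (b j) ∈ rsp (fun i => castL d (b i)) := Submodule.subset_span ⟨j, rfl⟩
      exact zsmul_mem hj _
    have h3 : S i = (((D : ℤ) : ℚ))⁻¹ • castL d u := by
      rw [e, smul_smul, inv_mul_cancel₀ hD0, one_smul]
    change S i ∈ rsp (fun i => castL d (b i))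
    rw [h3]
    exact Submodule.smul_mem _ _ h1

theorem linInd_int : LinearIndependent ℤ (fun i => (b i : Fin d → ℤ)) :=
  b.linearIndependent.map' (lat S).subtype (Submodule.ker_subtype _)

theorem linInd_rat : LinearIndependent ℚ (fun i => castL d (b i)) := by
  rw [← LinearIndependent.iff_fractionRing ℤ ℚ]
  exact (linInd_int S b).map' (castL d) (LinearMap.ker_eq_bot.2 (castL_injective d))

include b in
theorem card_eq (hS : LinearIndependent ℚ S) : n = r := by
  have h1 := finrank_span_eq_card (linInd_rat S b)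
  have h2 := finrank_span_eq_card hS
  have h3 : Submodule.span ℚ (Set.range fun i => castL d (b i)) = Submodule.span ℚ (Set.range S) :=
    rsp_eq S b
  rw [h3, h2] at h1
  simpa using h1.symm

theorem gcd_eq_one : Finset.univ.gcd (fun f : Fin n → Fin d =>
    Matrix.det (Matrix.of fun i k => (b i : Fin d → ℤ) (f k))) = 1 := by
  by_contra hg
  set g := Finset.univ.gcd (fun f : Fin n → Fin d =>
    Matrix.det (Matrix.of fun i k => (b i : Fin d → ℤ) (f k))) with hgdef
  obtain ⟨p, hp, hpg⟩ : ∃ p : ℕ, p.Prime ∧ (p : ℤ) ∣ g := by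
    have h1 : g.natAbs ≠ 1 := by
      intro h
      apply hg
      have hn : normalize g = g := Finset.normalize_gcd
      rw [← hn, ← Int.abs_eq_normalize, ← Int.natCast_natAbs, h]
      rfl
    obtain ⟨p, hp, hd⟩ := Nat.exists_prime_and_dvd h1
    exact ⟨p, hp, Int.natCast_dvd.mpr hd⟩
  have : Fact p.Prime := ⟨hp⟩
  have hall : ∀ f : Fin n → Fin d,
      (p : ℤ) ∣ Matrix.det (Matrix.of fun i k => (b i : Fin d → ℤ) (f k)) :=
    fun f => hpg.trans (Finset.gcd_dvd (Finset.mem_univ f))
  let Bbar : Fin n → Fin d → ZMod p := fun i k => (((b i : Fin d → ℤ) k : ℤ) : ZMod p)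
  have hmin : ∀ f, minors Bbar f = 0 := by
    intro f
    have e : minors Bbar f =
        ((Matrix.det (Matrix.of fun i k => (b i : Fin d → ℤ) (f k)) : ℤ) : ZMod p) := by
      unfold minors
      have := RingHom.map_det (Int.castRingHom (ZMod p))
        (Matrix.of fun i k => (b i : Fin d → ℤ) (f k))
      rw [eq_intCast] at this
      rw [this]
      rfl
    rw [e, ZMod.intCast_zmod_eq_zero_iff_dvd]
    exact hall f
  have hdep : ¬ LinearIndependent (ZMod p) Bbar := by
    rw [linearIndependent_iff_exists_minors_ne_zero]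
    push Not
    exact hmin
  rw [Fintype.linearIndependent_iff] at hdep
  push Not at hdep
  obtain ⟨cbar, hsum, i0, hi0⟩ := hdep
  let c : Fin n → ℤ := fun i => ((cbar i).val : ℤ)
  have hc : ∀ i, ((c i : ℤ) : ZMod p) = cbar i := by
    intro i
    simp [c]
  have hdiv : ∀ k, (p : ℤ) ∣ ∑ i, c i * (b i : Fin d → ℤ) k := by
    intro k
    rw [← ZMod.intCast_zmod_eq_zero_iff_dvd]
    push_cast
    simp only [hc]
    have := congrFun hsum k
    simpa [Bbar, Finset.sum_apply] using this
  choose w hw using hdiv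
  have hp0 : (p : ℚ) ≠ 0 := by exact_mod_cast hp.ne_zero
  have hwmem : w ∈ lat S := by
    rw [mem_lat]
    have e : castL d w = (p : ℚ)⁻¹ • ∑ i, c i • castL d (b i) := by
      funext k
      have := congrArg (Int.cast : ℤ → ℚ) (hw k)
      push_cast at this
      simp only [castL_apply, Pi.smul_apply, Finset.sum_apply, smul_eq_mul]
      simp only [zsmul_eq_mul]
      rw [this]
      field_simp
    rw [e]
    refine Submodule.smul_mem _ _ (Submodule.sum_mem _ fun i _ =>
      zsmul_mem (show castL d (b i) ∈ rsp S from (b i).2) _)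
  have hw2 := eq_sum S b w hwmem
  set c' := b.repr ⟨w, hwmem⟩ with hc'
  have hzero : ∑ i, (c i - p * c' i) • (b i : Fin d → ℤ) = 0 := by
    funext k
    have h1 := hw k
    have h2 := congrFun hw2 k
    simp only [Finset.sum_apply, Pi.smul_apply, smul_eq_mul, Pi.zero_apply] at h2 ⊢
    simp only [sub_mul, Finset.sum_sub_distrib, mul_assoc, ← Finset.mul_sum]
    rw [h1, ← h2, sub_self]
  have h0 := Fintype.linearIndependent_iff.1 (linInd_int S b) _ hzero i0
  apply hi0
  rw [← hc i0, ZMod.intCast_zmod_eq_zero_iff_dvd]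
  exact ⟨c' i0, by linarith⟩

end SiegelSat

/-- **Saturated integral basis.** `rsp S ∩ ℤ^d` is a free `ℤ`-module of rank `r`; for a `ℤ`-basis `B` the `r`-minors have gcd `1`
(if a prime `p` divides all of them, `B mod p` is dependent over `ZMod p` by `linearIndependent_iff_exists_minors_ne_zero`:
`c B ≡ 0 mod p` with `c ≢ 0`, then `c B / p` is in the lattice, contradiction). -/
theorem exists_saturated_basis {r d : ℕ} (S : Fin r → Fin d → ℚ) (hS : LinearIndependent ℚ S) :
    ∃ B : Fin r → Fin d → ℤ, rsp (fun i k => ((B i k : ℤ) : ℚ)) = rsp S ∧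
      LinearIndependent ℚ (fun i k => ((B i k : ℤ) : ℚ)) ∧
      (∀ u : Fin d → ℤ, (fun k => ((u k : ℤ) : ℚ)) ∈ rsp S → ∃ c : Fin r → ℤ, u = ∑ i, c i • B i) ∧
      Finset.univ.gcd (fun f : Fin r → Fin d => Matrix.det (Matrix.of fun i k => B i (f k))) = 1 := by
  obtain ⟨n, ⟨b⟩⟩ := Submodule.nonempty_basis_of_pid (Pi.basisFun ℤ (Fin d)) (SiegelSat.lat S)
  obtain rfl := SiegelSat.card_eq S b hS
  exact ⟨fun i => (b i : Fin d → ℤ), SiegelSat.rsp_eq S b, SiegelSat.linInd_rat S b,
    fun u hu => ⟨_, SiegelSat.eq_sum S b u hu⟩, SiegelSat.gcd_eq_one S b⟩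

end Fermat.Agent.S17.HL
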