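import Fermat.Agent.S17.HL.Cert

set_option autoImplicit false

/-!
# S17 / HL : the uniformity principle (arithmetic Nullstellensatz, affine form)
-/

namespace Fermat.Agent.S17.HL

open MvPolynomial

theorem evq_eq_hom {σ : Type} {K : Type} [Field K] [CharZero K] (x : σ → K)
    (p : MvPolynomial σ ℚ) : evq x p = MvPolynomial.eval₂Hom (Rat.castHom K) x p := rfl

/-- **Uniformity principle (lower bound).**
From the certificate: `1 = ∑ B j (x) Ψ j (x)` when `Φ (x) = 0`; bound `v (B j x) ≤ kap M_j v` by `UP_le` and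
the number of terms by `exists_le_abv_of_sum`. -/
theorem UP {σ ι κ : Type} [Finite σ] [Fintype ι] [Fintype κ]
    (Φ : ι → MvPolynomial σ ℚ) (Ψ : κ → MvPolynomial σ ℚ)
    (h : ∀ x : σ → Qb, (∀ i, evq x (Φ i) = 0) → ∃ j, evq x (Ψ j) ≠ 0) :
    ∃ M : ℕ, 0 < M ∧
    ∀ (K : Type) [Field K] [CharZero K] (v : AbsoluteValue K ℝ), GoodAbs v →
      ∀ x : σ → K, (∀ s, v (x s) ≤ 1) → (∀ i, evq x (Φ i) = 0) →
        ∃ j, 1 ≤ kap M v * v (evq x (Ψ j)) := by
  classical
  obtain ⟨A, B, hAB⟩ := exists_certificate Φ Ψ h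
  choose Mj hMj0 hMj using fun j => UP_le (B j)
  have hprod : 0 < ∏ j, Mj j := Finset.prod_pos fun j _ => hMj0 j
  refine ⟨(Fintype.card κ + 1) * ∏ j, Mj j, Nat.mul_pos (Nat.succ_pos _) hprod, ?_⟩
  intro K _ _ v hv x hx hΦ
  have h1 : ∑ j, evq x (B j) * evq x (Ψ j) = 1 := by
    have h2 := congrArg (evq x) hAB
    simp only [evq_eq_hom, map_add, map_sum, map_mul, map_one] at h2
    simp only [evq_eq_hom] at hΦ ⊢
    simpa [hΦ] using h2
  obtain ⟨j, -, hj⟩ := exists_le_abv_of_sum hv Finset.univ (fun j => evq x (B j) * evq x (Ψ j))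
    (M := Fintype.card κ + 1) (Nat.succ_pos _) (by simp) (by rw [h1]; exact one_ne_zero)
  refine ⟨j, ?_⟩
  rw [h1, map_one, map_mul] at hj
  rw [kap_mul]
  have h3 : v (evq x (B j)) ≤ kap (∏ j, Mj j) v :=
    (hMj j K v hv x hx).trans (kap_le_of_dvd hprod (Finset.dvd_prod_of_mem _ (Finset.mem_univ j)) v)
  calc (1 : ℝ) ≤ kap (Fintype.card κ + 1) v * (v (evq x (B j)) * v (evq x (Ψ j))) := hj
    _ ≤ kap (Fintype.card κ + 1) v * (kap (∏ j, Mj j) v * v (evq x (Ψ j))) := by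
        apply mul_le_mul_of_nonneg_left _ (kap_pos (Nat.succ_pos _) v).le
        exact mul_le_mul_of_nonneg_right h3 (v.nonneg _)
    _ = _ := by ring

end Fermat.Agent.S17.HL
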