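import Fermat.Agent.S17.HL.Kap

set_option autoImplicit false

/-!
# S17 / HL : the uniformity principle (arithmetic Nullstellensatz, affine form)
-/

namespace Fermat.Agent.S17.HL

open MvPolynomial

/-- evaluation of a rational polynomial at a point of a field of characteristic zero -/
noncomputable def evq {σ : Type} {K : Type} [Field K] [CharZero K] (x : σ → K) (p : MvPolynomial σ ℚ) : K :=
  MvPolynomial.eval₂ (Rat.castHom K) x p

theorem uple_add_le {K : Type} [Field K] [CharZero K] {v : AbsoluteValue K ℝ} (hv : GoodAbs v)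
    (a b : K) {B : ℝ} (hB0 : 0 ≤ B) (ha : v a ≤ B) (hb : v b ≤ B) : v (a + b) ≤ kap 2 v * B := by
  have := abv_sum_le_kap hv (Finset.univ : Finset (Fin 2)) ![a, b] hB0
    (by intro i _; fin_cases i <;> simpa) (M := 2) (by norm_num) (by simp)
  simpa [Fin.sum_univ_two] using this

/-- **Upper bound.** A rational polynomial is bounded by a local constant on the unit polydisc.
Proof: `M = (common denominator) * (sum of |numerators|)` (or product over the finitely many
coefficients of the constants of `exists_ratCast_le_kap`, times the number of monomials). -/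
theorem UP_le {σ : Type} [Finite σ] (Ψ : MvPolynomial σ ℚ) : ∃ M : ℕ, 0 < M ∧
    ∀ (K : Type) [Field K] [CharZero K] (v : AbsoluteValue K ℝ), GoodAbs v →
      ∀ x : σ → K, (∀ s, v (x s) ≤ 1) → v (evq x Ψ) ≤ kap M v := by
  induction Ψ using MvPolynomial.induction_on with
  | C a =>
    obtain ⟨M, hM, h⟩ := exists_ratCast_le_kap a
    refine ⟨M, hM, fun K _ _ v hv x _ => ?_⟩
    have : evq x (C a) = ((a : ℚ) : K) := by simp [evq]
    rw [this]
    exact h K v hv
  | add p q hp hq =>
    obtain ⟨M1, hM1, h1⟩ := hp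
    obtain ⟨M2, hM2, h2⟩ := hq
    refine ⟨2 * (M1 * M2), by positivity, fun K _ _ v hv x hx => ?_⟩
    have : evq x (p + q) = evq x p + evq x q := by simp [evq]
    rw [this, kap_mul]
    apply uple_add_le hv _ _ (kap_pos (Nat.mul_pos hM1 hM2) v).le
    · exact (h1 K v hv x hx).trans (kap_le_of_dvd (Nat.mul_pos hM1 hM2) (Dvd.intro _ rfl) v)
    · exact (h2 K v hv x hx).trans (kap_le_of_dvd (Nat.mul_pos hM1 hM2) (Dvd.intro_left _ rfl) v)
  | mul_X p n hp =>
    obtain ⟨M, hM, h⟩ := hp
    refine ⟨M, hM, fun K _ _ v hv x hx => ?_⟩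
    have : evq x (p * X n) = evq x p * x n := by simp [evq]
    rw [this, map_mul]
    calc v (evq x p) * v (x n) ≤ v (evq x p) * 1 :=
          mul_le_mul_of_nonneg_left (hx n) (v.nonneg _)
      _ = v (evq x p) := mul_one _
      _ ≤ kap M v := h K v hv x hx

end Fermat.Agent.S17.HL
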