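import Fermat.Agent.S17.HL.USMinor
import Fermat.Agent.S17.HL.Cramer

set_option autoImplicit false

/-!
# S17 / HL : uniform surjectivity of the multiplication `U ⊗ U' → U U'`
-/

namespace Fermat.Agent.S17.HL

variable {dj d dmj dj' d' dmj' d'' : ℕ}

theorem US (Tj : Tab dj d dmj) (Tj' : Tab dj' d' dmj') (T : Tab d d' d'')
    (r ρ r' ρ' r'' : ℕ) (h : HypUS Tj Tj' T r ρ r' ρ' r'') : ∃ M : ℕ, 0 < M ∧
    ∀ (K : Type) [Field K] [CharZero K] (v : AbsoluteValue K ℝ), GoodAbs v →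
      ∀ (S : Fin r → Fin d → K) (S' : Fin r' → Fin d' → K),
        LinearIndependent K S → LinearIndependent K S' →
        Module.finrank K (Tj.prod ⊤ (rsp S)) ≤ ρ → Module.finrank K (Tj'.prod ⊤ (rsp S')) ≤ ρ' →
        Module.finrank K (T.prod (rsp S) (rsp S')) ≤ r'' →
        ∀ t ∈ T.prod (rsp S) (rsp S'),
          ∃ (a : Fin r'' → Fin d → K) (a' : Fin r'' → Fin d' → K),
            (∀ l, a l ∈ rsp S) ∧ (∀ l, a' l ∈ rsp S') ∧ t = ∑ l, T.mul (a l) (a' l) ∧
            ∀ l, nrm v (a l) * nrm v (a' l) ≤ kap M v * nrm v t := by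
  classical
  choose MI hMI0 hMI using fun p : (Fin r → Fin d) × (Fin r' → Fin d') =>
    US_minor Tj Tj' T r ρ r' ρ' r'' h p.1 p.2
  obtain ⟨M2, hM2, hmul⟩ := T.exists_nrm_mul_le
  have hprod : 0 < ∏ p, MI p := Finset.prod_pos fun p _ => hMI0 p
  refine ⟨(∏ p, MI p) * (r''.factorial * M2 ^ r''),
    Nat.mul_pos hprod (Nat.mul_pos (Nat.factorial_pos _) (pow_pos hM2 _)), ?_⟩
  intro K _ _ v hv S S' hS hS' hρ hρ' hr'' t ht
  obtain ⟨I, R, hR, -, -, hRS, -⟩ := exists_reduced v S hS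
  obtain ⟨I', R', hR', -, -, hRS', -⟩ := exists_reduced v S' hS'
  obtain ⟨g, f, hgf⟩ := hMI (I, I') K v hv R R' hR hR' (by rw [hRS]; exact hρ)
    (by rw [hRS']; exact hρ')
  set p : Fin r'' → Fin d'' → K := fun a => T.fam₂ R R' (g a) with hp
  have hne : minors p f ≠ 0 := by
    intro h0
    rw [h0, map_zero, mul_zero] at hgf
    linarith
  have hind : LinearIndependent K p := (linearIndependent_iff_exists_minors_ne_zero _).2 ⟨f, hne⟩
  have hle : rsp p ≤ T.prod (rsp S) (rsp S') := by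
    rw [← hRS, ← hRS', ← Tab.span_fam₂]
    apply Submodule.span_mono
    rintro _ ⟨a, rfl⟩
    exact ⟨g a, rfl⟩
  have heq : rsp p = T.prod (rsp S) (rsp S') :=
    Submodule.eq_of_le_of_finrank_le hle (by
      have e : Module.finrank K (rsp p) = r'' := by
        rw [rsp, finrank_span_eq_card hind, Fintype.card_fin]
      rw [e]; exact hr'')
  rw [← heq] at ht
  obtain ⟨c, hc⟩ := (Submodule.mem_span_range_iff_exists_fun K).1 ht
  have hB1 : 1 ≤ kap M2 v := one_le_kap hM2 v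
  have hk2 : 0 < kap M2 v := kap_pos hM2 v
  have hpB : ∀ l k, v (p l k) ≤ kap M2 v := by
    intro l k
    refine (le_nrm v (p l) k).trans ((hmul K v hv _ _).trans ?_)
    have h1 := hR.nrm_le_one (g l).1
    have h2 := hR'.nrm_le_one (g l).2
    have h3 : nrm v (R (g l).1) * nrm v (R' (g l).2) ≤ 1 :=
      mul_le_one₀ h1 (nrm_nonneg _ _) h2
    calc kap M2 v * (nrm v (R (g l).1) * nrm v (R' (g l).2)) ≤ kap M2 v * 1 := by gcongr
      _ = _ := mul_one _
  refine ⟨fun l => c l • R (g l).1, fun l => R' (g l).2, ?_, ?_, ?_, ?_⟩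
  · intro l
    rw [← hRS]
    exact Submodule.smul_mem _ _ (Submodule.subset_span ⟨_, rfl⟩)
  · intro l
    rw [← hRS']
    exact Submodule.subset_span ⟨_, rfl⟩
  · rw [← hc]
    refine Finset.sum_congr rfl fun l _ => ?_
    rw [T.mul_smul_left]
    rfl
  · intro l
    have hcr := cramer_bound hv p f hB1 hpB c l
    rw [hc] at hcr
    rw [nrm_smul, kap_mul, kap_mul, kap_pow]
    have h1 := hR.nrm_le_one (g l).1
    have h2 := hR'.nrm_le_one (g l).2
    have hkI : kap (MI (I, I')) v ≤ kap (∏ p, MI p) v :=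
      kap_le_of_dvd hprod (Finset.dvd_prod_of_mem _ (Finset.mem_univ _)) v
    have hkI0 : 0 < kap (MI (I, I')) v := kap_pos (hMI0 _) v
    have q1 := v.nonneg (c l)
    have q2 := v.nonneg (minors p f)
    have q3 := nrm_nonneg v t
    have q4 := nrm_nonneg v (R (g l).1)
    have q5 := nrm_nonneg v (R' (g l).2)
    have q6 : 0 < kap r''.factorial v := kap_pos (Nat.factorial_pos _) v
    have q7 : 0 < kap (∏ p, MI p) v := kap_pos hprod v
    calc v (c l) * nrm v (R (g l).1) * nrm v (R' (g l).2) ≤ v (c l) * 1 * 1 := by gcongr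
      _ = v (c l) * 1 := by ring
      _ ≤ v (c l) * (kap (MI (I, I')) v * v (minors p f)) := by gcongr
      _ = kap (MI (I, I')) v * (v (c l) * v (minors p f)) := by ring
      _ ≤ kap (∏ p, MI p) v * (kap r''.factorial v * (kap M2 v ^ r'' * nrm v t)) := by gcongr
      _ = _ := by ring

end Fermat.Agent.S17.HL
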